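/-
PROJECT T (S56), block (a2) = S56/Ord (helper6), leaf (O-K), part 1: HILBERT 90 FOR LOCALLY CONSTANT
COCYCLES OF AN INFINITE GALOIS EXTENSION, and the resulting KUMMER BOUND

  `#{locally constant crossed homomorphisms Gal(Ω/K) → 𝔽_p(ω)} ≤ p * [Kˣ : (Kˣ)^p]`

for an algebraically closed Galois extension `Ω/K` containing a primitive `p`-th root of unity `ζ`
(`ω` = the action on `μ_p`).  No hypothesis `ζ ∈ K`.
-/
import Mathlib

set_option autoImplicit false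
set_option linter.unusedSectionVars false

namespace Fermat.Agent.S56.Ord.KummerH90

open groupCohomology

section H90

variable {K Ω : Type*} [Field K] [Field Ω] [Algebra K Ω] [IsGalois K Ω]

/-- **Hilbert 90 at infinite level.**  A multiplicative 1-cocycle `f : Gal(Ω/K) → Ωˣ` which is
constant on the cosets of the fixing subgroup of a finite normal subextension `E` and has its
values in `E` is a coboundary, of an element of `E`. -/
theorem exists_ne_zero_of_cocycle (f : (Ω ≃ₐ[K] Ω) → Ω) (hf0 : ∀ σ, f σ ≠ 0)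
    (hf : ∀ σ τ, f (σ * τ) = σ (f τ) * f σ)
    (E : IntermediateField K Ω) [FiniteDimensional K E] [Normal K E]
    (hE : ∀ σ, ∀ τ ∈ E.fixingSubgroup, f (σ * τ) = f σ) (hval : ∀ σ, f σ ∈ E) :
    ∃ β : Ω, β ≠ 0 ∧ β ∈ E ∧ ∀ σ : Ω ≃ₐ[K] Ω, σ β = f σ * β := by
  classical
  -- restriction to `E`
  let res : (Ω ≃ₐ[K] Ω) →* (E ≃ₐ[K] E) := AlgEquiv.restrictNormalHom E
  have hres : ∀ (σ : Ω ≃ₐ[K] Ω) (x : E), ((res σ x : E) : Ω) = σ (x : Ω) := fun σ x =>
    AlgEquiv.restrictNormal_commutes σ E x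
  have hsurj : Function.Surjective res := AlgEquiv.restrictNormalHom_surjective Ω
  -- `f` depends only on the restriction
  have hdep : ∀ σ σ' : Ω ≃ₐ[K] Ω, res σ = res σ' → f σ = f σ' := by
    intro σ σ' h
    have hmem : σ⁻¹ * σ' ∈ E.fixingSubgroup := by
      rw [IntermediateField.mem_fixingSubgroup_iff]
      intro x hx
      have h1 := hres σ ⟨x, hx⟩
      have h2 := hres σ' ⟨x, hx⟩
      rw [h] at h1
      rw [AlgEquiv.mul_apply]
      have h3 : σ' x = σ x := by rw [← h2, ← h1]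
      rw [h3]
      exact σ.symm_apply_apply x
    have := hE σ _ hmem
    rw [mul_inv_cancel_left] at this
    exact this.symm
  choose lift hlift using hsurj
  -- the descended cocycle
  let fE : (E ≃ₐ[K] E) → Eˣ := fun τ =>
    Units.mk0 ⟨f (lift τ), hval (lift τ)⟩ (fun h => hf0 (lift τ) (congrArg Subtype.val h))
  have hfE : IsMulCocycle₁ fE := by
    intro τ τ'
    apply Units.ext
    apply Subtype.ext
    rw [Units.val_mul, AlgEquiv.smul_units_def]
    show f (lift (τ * τ')) = ((τ ((fE τ' : Eˣ) : E) : E) : Ω) * f (lift τ)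
    have h1 : f (lift (τ * τ')) = f (lift τ * lift τ') := by
      apply hdep
      rw [map_mul, hlift, hlift, hlift]
    rw [h1, hf]
    congr 1
    have h2 := hres (lift τ) ((fE τ' : Eˣ) : E)
    rw [hlift] at h2
    rw [h2]
    rfl
  obtain ⟨b, hb⟩ := isMulCoboundary₁_of_isMulCocycle₁_of_aut_to_units fE hfE
  refine ⟨((b : E) : Ω), ?_, (b : E).2, fun σ => ?_⟩
  · intro h
    exact b.ne_zero (Subtype.ext h)
  · have h1 := hb (res σ)
    rw [div_eq_iff_eq_mul, AlgEquiv.smul_units_def] at h1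
    have h2 := congrArg (fun u : Eˣ => ((u : E) : Ω)) h1
    simp only [Units.val_mul, Units.coe_map, MonoidHom.coe_coe, MulMemClass.coe_mul] at h2
    rw [hres] at h2
    rw [h2]
    congr 1
    show f (lift (res σ)) = f σ
    exact hdep _ _ (hlift (res σ))

end H90

/-! ### Powers of a primitive root indexed by `ZMod p` -/

section Zp

variable {Ω : Type*} [Field Ω] {p : ℕ} [Fact p.Prime]

/-- `ζ ^ i` for `i : ZMod p`. -/
def zp (ζ : Ω) (i : ZMod p) : Ω := ζ ^ i.val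

variable {ζ : Ω} (hζ : IsPrimitiveRoot ζ p)

include hζ

theorem pow_mod (m : ℕ) : ζ ^ (m % p) = ζ ^ m := by
  conv_rhs => rw [← Nat.mod_add_div m p]
  rw [pow_add, pow_mul, hζ.pow_eq_one, one_pow, mul_one]

theorem zp_natCast (n : ℕ) : zp ζ (n : ZMod p) = ζ ^ n := by
  rw [zp, ZMod.val_natCast, pow_mod hζ]

theorem zp_add (i j : ZMod p) : zp ζ (i + j) = zp ζ i * zp ζ j := by
  rw [zp, zp, zp, ZMod.val_add, pow_mod hζ, pow_add]

theorem zp_mul (i j : ZMod p) : zp ζ (i * j) = zp ζ j ^ i.val := by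
  rw [zp, zp, ZMod.val_mul, pow_mod hζ, ← pow_mul, mul_comm]

omit hζ in
theorem zp_zero : zp ζ (0 : ZMod p) = 1 := by
  rw [zp, ZMod.val_zero, pow_zero]

theorem zp_pow (i : ZMod p) : zp ζ i ^ p = 1 := by
  rw [zp, ← pow_mul, mul_comm, pow_mul, hζ.pow_eq_one, one_pow]

theorem zp_ne_zero (i : ZMod p) : zp ζ i ≠ 0 := by
  intro h
  have := zp_pow hζ i
  rw [h, zero_pow (Fact.out : p.Prime).ne_zero] at this
  exact zero_ne_one this

theorem zp_injective : Function.Injective (zp (p := p) ζ) := by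
  intro i j h
  exact ZMod.val_injective p (hζ.pow_inj (ZMod.val_lt i) (ZMod.val_lt j) h)

theorem exists_zp_eq {x : Ω} (hx : x ^ p = 1) : ∃ i : ZMod p, x = zp ζ i := by
  obtain ⟨i, -, hi⟩ := hζ.eq_pow_of_pow_eq_one hx
  exact ⟨(i : ZMod p), by rw [zp_natCast hζ, hi]⟩

theorem zp_neg_mul (i : ZMod p) : zp ζ (-i) * zp ζ i = 1 := by
  rw [← zp_add hζ, neg_add_cancel, zp_zero]

end Zp

/-! ### The Kummer bound -/

section Bound

variable {K Ω : Type*} [Field K] [Field Ω] [Algebra K Ω] [IsGalois K Ω] [IsAlgClosed Ω]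
  {p : ℕ} [Fact p.Prime] {ζ : Ω} (hζ : IsPrimitiveRoot ζ p)
  (ω : (Ω ≃ₐ[K] Ω) → ZMod p) (hω : ∀ σ, σ ζ = zp ζ (ω σ))

/-- Locally constant crossed homomorphisms `Gal(Ω/K) → 𝔽_p(ω)`. -/
def IsCross (ω : (Ω ≃ₐ[K] Ω) → ZMod p) (c : (Ω ≃ₐ[K] Ω) → ZMod p) : Prop :=
  (∀ σ τ, c (σ * τ) = ω σ * c τ + c σ) ∧
    ∃ E : IntermediateField K Ω, FiniteDimensional K E ∧
      ∀ σ, ∀ τ ∈ E.fixingSubgroup, c (σ * τ) = c σ

include hζ hω

theorem map_zp (σ : Ω ≃ₐ[K] Ω) (i : ZMod p) : σ (zp ζ i) = zp ζ (ω σ * i) := by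
  rw [mul_comm, zp_mul hζ, ← hω, zp, map_pow]

omit [IsAlgClosed Ω] in
/-- An element fixed by the whole Galois group lies in the base field. -/
theorem exists_algebraMap_eq_of_fixed {x : Ω} (hx : ∀ σ : Ω ≃ₐ[K] Ω, σ x = x) :
    ∃ a : K, algebraMap K Ω a = x := by
  have h1 : x ∈ IntermediateField.fixedField (⊥ : IntermediateField K Ω).fixingSubgroup := by
    rw [IntermediateField.mem_fixedField_iff]
    intro σ _
    exact hx σ
  rw [InfiniteGalois.fixedField_fixingSubgroup] at h1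
  exact IntermediateField.mem_bot.1 h1

/-- **Kummer description of crossed homomorphisms**: every locally constant crossed homomorphism is
`σ ↦ log_ζ (σ β / β)` for a `β ≠ 0` with `β ^ p ∈ K`. -/
theorem exists_radical {c : (Ω ≃ₐ[K] Ω) → ZMod p} (hc : IsCross ω c) :
    ∃ β : Ω, β ≠ 0 ∧ (∃ a : K, algebraMap K Ω a = β ^ p) ∧ ∀ σ : Ω ≃ₐ[K] Ω, σ β = zp ζ (c σ) * β := by
  obtain ⟨hcoc, E, hEfin, hE⟩ := hc
  -- enlarge `E` to a finite normal extension containing `ζ`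
  have hζint : IsIntegral K ζ := (Algebra.IsAlgebraic.isAlgebraic (R := K) ζ).isIntegral
  have : FiniteDimensional K (IntermediateField.adjoin K {ζ}) :=
    IntermediateField.adjoin.finiteDimensional hζint
  have : FiniteDimensional K ↥(E ⊔ IntermediateField.adjoin K {ζ}) :=
    IntermediateField.finiteDimensional_sup E _
  let E' : IntermediateField K Ω :=
    IntermediateField.normalClosure K ↥(E ⊔ IntermediateField.adjoin K {ζ}) Ω
  have hle : E ⊔ IntermediateField.adjoin K {ζ} ≤ E' := IntermediateField.le_normalClosure _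
  have hζE' : ζ ∈ E' :=
    hle ((le_sup_right : _ ≤ E ⊔ IntermediateField.adjoin K {ζ})
      (IntermediateField.mem_adjoin_simple_self K ζ))
  have hfix : E'.fixingSubgroup ≤ E.fixingSubgroup :=
    IntermediateField.fixingSubgroup_antitone (le_sup_left.trans hle)
  obtain ⟨β, hβ0, -, hβ⟩ := exists_ne_zero_of_cocycle (K := K) (fun σ => zp ζ (c σ))
    (fun σ => zp_ne_zero hζ _)
    (fun σ τ => by
      show zp ζ (c (σ * τ)) = σ (zp ζ (c τ)) * zp ζ (c σ)
      rw [hcoc, zp_add hζ, map_zp hζ ω hω])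
    E' (fun σ τ hτ => by
      show zp ζ (c (σ * τ)) = zp ζ (c σ)
      rw [hE σ τ (hfix hτ)])
    (fun σ => pow_mem hζE' _)
  refine ⟨β, hβ0, ?_, hβ⟩
  apply exists_algebraMap_eq_of_fixed hζ ω hω
  intro σ
  rw [map_pow, hβ σ, mul_pow, zp_pow hζ, one_mul]

/-- The logarithm (base `ζ`) of `σ γ / γ`, when it is a `p`-th root of unity (junk `0` else). -/
noncomputable def logc (ζ : Ω) (γ : Ω) (σ : Ω ≃ₐ[K] Ω) : ZMod p := by
  classical
  exact if h : ∃ j : ZMod p, σ γ = zp ζ j * γ then h.choose else 0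

omit [IsGalois K Ω] [IsAlgClosed Ω] hω in
theorem logc_eq {γ : Ω} (hγ : γ ≠ 0) {σ : Ω ≃ₐ[K] Ω} {j : ZMod p} (h : σ γ = zp ζ j * γ) :
    logc ζ γ σ = j := by
  have hex : ∃ j : ZMod p, σ γ = zp ζ j * γ := ⟨j, h⟩
  rw [logc, dif_pos hex]
  have h1 := hex.choose_spec
  exact (zp_injective hζ (mul_right_cancel₀ hγ (h.symm.trans h1))).symm

/-- A chosen `p`-th root in `Ω` of the chosen representative of a class of `Kˣ / (Kˣ)^p`. -/
noncomputable def rt (x : Kˣ ⧸ (powMonoidHom p : Kˣ →* Kˣ).range) : Ω :=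
  (IsAlgClosed.exists_pow_nat_eq (algebraMap K Ω ((x.out : Kˣ) : K))
    (Fact.out : p.Prime).pos).choose

omit [IsGalois K Ω] hζ hω in
theorem rt_pow (x : Kˣ ⧸ (powMonoidHom p : Kˣ →* Kˣ).range) :
    rt (Ω := Ω) x ^ p = algebraMap K Ω ((x.out : Kˣ) : K) :=
  (IsAlgClosed.exists_pow_nat_eq (algebraMap K Ω ((x.out : Kˣ) : K))
    (Fact.out : p.Prime).pos).choose_spec

/-- The parametrisation of crossed homomorphisms by `Kˣ / (Kˣ)^p × 𝔽_p`. -/
noncomputable def gmap (ζ : Ω) (ω : (Ω ≃ₐ[K] Ω) → ZMod p)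
    (d : (Kˣ ⧸ (powMonoidHom p : Kˣ →* Kˣ).range) × ZMod p) : (Ω ≃ₐ[K] Ω) → ZMod p :=
  fun σ => logc ζ (rt d.1) σ + d.2 * (ω σ - 1)

theorem exists_gmap_eq {c : (Ω ≃ₐ[K] Ω) → ZMod p} (hc : IsCross ω c) :
    ∃ d, gmap ζ ω d = c := by
  obtain ⟨β, hβ0, ⟨a, ha⟩, hβ⟩ := exists_radical hζ ω hω hc
  have ha0 : a ≠ 0 := by
    rintro rfl
    rw [map_zero] at ha
    exact pow_ne_zero p hβ0 ha.symm
  let au : Kˣ := Units.mk0 a ha0
  obtain ⟨h, hh⟩ := QuotientGroup.mk_out_eq_mul (powMonoidHom p : Kˣ →* Kˣ).range au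
  obtain ⟨b, hb⟩ := h.2
  rw [powMonoidHom_apply] at hb
  let x : Kˣ ⧸ (powMonoidHom p : Kˣ →* Kˣ).range := QuotientGroup.mk au
  have hout : ((x.out : Kˣ) : K) = a * (b : K) ^ p := by
    have h1 := congrArg (fun u : Kˣ => (u : K)) hh
    simp only [Units.val_mul] at h1
    rw [h1, ← hb, Units.val_pow_eq_pow_val]
    rfl
  obtain ⟨γ, hγ⟩ : ∃ γ : Ω, γ = rt x := ⟨_, rfl⟩
  obtain ⟨δ, hδ⟩ : ∃ δ : Ω, δ = β * algebraMap K Ω (b : K) := ⟨_, rfl⟩
  have hδ0 : δ ≠ 0 := by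
    rw [hδ]
    refine mul_ne_zero hβ0 ?_
    rw [Ne, map_eq_zero]
    exact b.ne_zero
  have hγp : γ ^ p = δ ^ p := by
    rw [hγ, hδ, rt_pow, hout, mul_pow, ← ha, ← map_pow, ← map_mul]
  have hγ0 : γ ≠ 0 := by
    intro h0
    rw [h0, zero_pow (Fact.out : p.Prime).ne_zero] at hγp
    exact pow_ne_zero p hδ0 hγp.symm
  obtain ⟨j, hj⟩ := exists_zp_eq hζ (x := γ / δ) (by rw [div_pow, hγp, div_self (pow_ne_zero p hδ0)])
  have hγδ : γ = zp ζ j * δ := by
    rw [← hj, div_mul_cancel₀ _ hδ0]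
  refine ⟨(x, -j), ?_⟩
  funext σ
  have h2 : σ δ = zp ζ (c σ) * δ := by
    rw [hδ, map_mul, hβ σ, AlgEquiv.commutes, mul_assoc]
  have h1 : σ γ = zp ζ (ω σ * j + c σ - j) * γ := by
    rw [hγδ, map_mul, map_zp hζ ω hω, h2, ← mul_assoc, ← mul_assoc, ← zp_add hζ, ← zp_add hζ]
    congr 2
    ring
  show logc ζ (rt x) σ + (-j) * (ω σ - 1) = c σ
  rw [← hγ, logc_eq hζ hγ0 h1]
  ring

/-- Finiteness of the set of locally constant crossed homomorphisms. -/
theorem finite_isCross [Finite (Kˣ ⧸ (powMonoidHom p : Kˣ →* Kˣ).range)] :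
    Finite {c : (Ω ≃ₐ[K] Ω) → ZMod p // IsCross ω c} := by
  choose φ hφ using fun c : {c : (Ω ≃ₐ[K] Ω) → ZMod p // IsCross ω c} =>
    exists_gmap_eq hζ ω hω c.2
  have hinj : Function.Injective φ := fun c c' h =>
    Subtype.ext (by rw [← hφ c, ← hφ c', h])
  exact Finite.of_injective φ hinj

/-- **The Kummer bound**: there are at most `[Kˣ : (Kˣ)^p] * p` locally constant crossed
homomorphisms `Gal(Ω/K) → 𝔽_p(ω)`. -/
theorem card_isCross_le [Finite (Kˣ ⧸ (powMonoidHom p : Kˣ →* Kˣ).range)] :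
    Nat.card {c : (Ω ≃ₐ[K] Ω) → ZMod p // IsCross ω c} ≤
      Nat.card (Kˣ ⧸ (powMonoidHom p : Kˣ →* Kˣ).range) * p := by
  choose φ hφ using fun c : {c : (Ω ≃ₐ[K] Ω) → ZMod p // IsCross ω c} =>
    exists_gmap_eq hζ ω hω c.2
  have hinj : Function.Injective φ := fun c c' h =>
    Subtype.ext (by rw [← hφ c, ← hφ c', h])
  calc Nat.card {c : (Ω ≃ₐ[K] Ω) → ZMod p // IsCross ω c}
      ≤ Nat.card ((Kˣ ⧸ (powMonoidHom p : Kˣ →* Kˣ).range) × ZMod p) :=
        Nat.card_le_card_of_injective φ hinj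
    _ = Nat.card (Kˣ ⧸ (powMonoidHom p : Kˣ →* Kˣ).range) * p := by
        rw [Nat.card_prod, Nat.card_zmod]

end Bound

end Fermat.Agent.S56.Ord.KummerH90
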