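/-
PROJECT T (S56), block (a2) = S56/Ord (helper6), leaf (O-R): THE MOD-`p` CYCLOTOMIC CHARACTER IS
RAMIFIED AT `p` (`p` odd).

For a valuation subring `A` of `ℚ̄` over an odd prime `p`, some element of the inertia group of `A`
moves a `p`-th root of unity.

Proof on stock: `S13/Local/Ram.exists_zpow_valuation_eq'` (an inertia-invariant element has its
valuation in `v(p)^ℤ`), while `v(ζ - 1)^(p-1) = v(p)` for a primitive `p`-th root of unity `ζ`.
-/
import Fermat.Agent.S13.Local.Ram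

set_option autoImplicit false

namespace Fermat.Agent.S56.Ord.OmegaRam

open Finset

local notation "Qbar" => AlgebraicClosure ℚ

/-- A root of unity lies in every valuation subring. -/
theorem mem_of_pow_eq_one (A : ValuationSubring Qbar) {x : Qbar} {n : ℕ}
    (hn : n ≠ 0) (hx : x ^ n = 1) : x ∈ A := by
  rcases A.mem_or_inv_mem x with h | h
  · exact h
  · have h1 : x = (x⁻¹) ^ (n - 1) := by
      have h2 : x * x ^ (n - 1) = 1 := by
        rw [← pow_succ', Nat.sub_add_cancel (Nat.one_le_iff_ne_zero.2 hn), hx]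
      rw [inv_pow]
      exact (eq_inv_of_mul_eq_one_left h2)
    rw [h1]
    exact pow_mem h _

/-- `v(1 - ζ ^ j) ≤ v(1 - ζ)` for a root of unity `ζ`. -/
theorem valuation_one_sub_pow_le (A : ValuationSubring Qbar) {ζ : Qbar} {n : ℕ} (hn : n ≠ 0)
    (hζ : ζ ^ n = 1) (j : ℕ) : A.valuation (1 - ζ ^ j) ≤ A.valuation (1 - ζ) := by
  have h1 : 1 - ζ ^ j = (1 - ζ) * ∑ i ∈ range j, ζ ^ i := by
    have := mul_neg_geom_sum ζ j
    rw [this]
  have h2 : (∑ i ∈ range j, ζ ^ i) ∈ A :=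
    sum_mem fun i _ => pow_mem (mem_of_pow_eq_one A hn hζ) i
  rw [h1, map_mul]
  exact mul_le_of_le_one_right' ((A.valuation_le_one_iff _).2 h2)

/-- `v(1 - ζ ^ j) = v(1 - ζ)` for a primitive `p`-th root of unity and `j` prime to `p`. -/
theorem valuation_one_sub_pow_eq (A : ValuationSubring Qbar) {ζ : Qbar} {p : ℕ} (hp : p.Prime)
    (hζ : IsPrimitiveRoot ζ p) {j : ℕ} (hj : j.Coprime p) :
    A.valuation (1 - ζ ^ j) = A.valuation (1 - ζ) := by
  refine le_antisymm (valuation_one_sub_pow_le A hp.ne_zero hζ.pow_eq_one j) ?_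
  obtain ⟨m, hm⟩ : ∃ m : ℕ, (ζ ^ j) ^ m = ζ := by
    obtain ⟨m, -, hm⟩ := Nat.exists_mul_mod_eq_one_of_coprime hj hp.one_lt
    refine ⟨m, ?_⟩
    rw [← pow_mul, ← pow_mod_orderOf, ← hζ.eq_orderOf, hm, pow_one]
  have h := valuation_one_sub_pow_le A hp.ne_zero
    (show (ζ ^ j) ^ p = 1 by rw [← pow_mul, mul_comm, pow_mul, hζ.pow_eq_one, one_pow]) m
  rwa [hm] at h

/-- `v(1 - ζ) ^ (p - 1) = v(p)` for a primitive `p`-th root of unity `ζ`. -/
theorem valuation_one_sub_pow_pred (A : ValuationSubring Qbar) {ζ : Qbar} {p : ℕ} (hp : p.Prime)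
    (hζ : IsPrimitiveRoot ζ p) :
    A.valuation (1 - ζ) ^ (p - 1) = A.valuation ((p : ℕ) : Qbar) := by
  obtain ⟨n, rfl⟩ : ∃ n, p = n + 1 := ⟨p - 1, (Nat.sub_add_cancel hp.one_le).symm⟩
  have h := congrArg A.valuation hζ.prod_one_sub_pow_eq_order
  rw [map_prod] at h
  rw [Finset.prod_congr rfl (fun k hk => valuation_one_sub_pow_eq A hp hζ
    (show (k + 1).Coprime (n + 1) from
      ((Nat.Prime.coprime_iff_not_dvd hp).2 (Nat.not_dvd_of_pos_of_lt (Nat.succ_pos k)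
        (by have := Finset.mem_range.1 hk; omega))).symm)),
    Finset.prod_const, Finset.card_range] at h
  rw [Nat.add_sub_cancel, h]
  push_cast
  rfl

/-- **Leaf (O-R).**  For an odd prime `p` and a valuation subring `A` of `ℚ̄` over `p`, some
element of the inertia group of `A` moves a `p`-th root of unity: the mod `p` cyclotomic
character is ramified at `p`. -/
theorem exists_mem_inertia_ne {p : ℕ} (hp : p.Prime) (hp2 : p ≠ 2) {A : ValuationSubring Qbar}
    (hA : A.LiesOverPrime p) :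
    ∃ s ∈ A.inertiaSubgroupIn ℚ, ∃ ζ : Qbar, ζ ^ p = 1 ∧ s ζ ≠ ζ := by
  obtain ⟨ζ, hζ⟩ : ∃ ζ : Qbar, IsPrimitiveRoot ζ p := by
    have : NeZero (p : ℚ) := ⟨Nat.cast_ne_zero.2 hp.ne_zero⟩
    exact HasEnoughRootsOfUnity.exists_primitiveRoot Qbar p
  by_contra hcon
  push Not at hcon
  have hfix : ∀ s ∈ A.inertiaSubgroupIn ℚ, s (1 - ζ) = 1 - ζ := fun s hs => by
    rw [map_sub, map_one, hcon s hs ζ hζ.pow_eq_one]
  have hne : (1 - ζ) ≠ 0 := sub_ne_zero.2 (hζ.ne_one hp.one_lt).symm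
  obtain ⟨n, hn⟩ := Fermat.Agent.S13.Local.Ram.exists_zpow_valuation_eq' hp hA hne hfix
  have h1 := valuation_one_sub_pow_pred A hp hζ
  have hv0 : 0 < A.valuation ((p : ℕ) : Qbar) :=
    zero_lt_iff.mpr (Fermat.Agent.S13.Local.Ram.valuation_natCast_ne_zero hp A)
  have hv1 : A.valuation ((p : ℕ) : Qbar) < 1 :=
    Fermat.Agent.S13.Local.Ram.valuation_natCast_lt_one hA
  rw [hn, ← zpow_natCast, ← zpow_mul] at h1
  have h2 : n * ((p - 1 : ℕ) : ℤ) = 1 := by
    apply zpow_right_injective₀ hv0 hv1.ne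
    simpa using h1
  have h3 : ((p - 1 : ℕ) : ℤ) ∣ 1 := Dvd.intro_left _ h2
  have h4 : p - 1 ∣ 1 := by exact_mod_cast h3
  have h5 := Nat.le_of_dvd Nat.one_pos h4
  have h6 := hp.two_le
  omega

end Fermat.Agent.S56.Ord.OmegaRam
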