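/-
PROJECT T (S56), block (a2) = S56/Ord (helper6), file [O4]: THE DEVISSAGE COUNT (abstract, pure
cardinalities; no long exact sequence).

`G` acts `k`-linearly on a finite `k`-space `N`; `W ≤ N` a `G`-stable line; `h ∉ W` with
`(g - 1) h ∈ W` for all `g`; `B`, `ZW` subspaces of `G → N` (`B` = coboundaries, `ZW` = cocycles with
values in `W`), such that `d n := (g ↦ g n - n) ∈ B ⊓ ZW` whenever `(g - 1) n ∈ W` for all `g`.
If `#ZW ≤ (#k)^3` then every `Lc ≤ B ⊔ ZW` has `#(Lc / B ∩ Lc) ≤ #k * #N^G`.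
-/
import Mathlib

set_option autoImplicit false

namespace Fermat.Agent.S56.Ord.Count

variable {k : Type*} [Field k] {G : Type*} {N : Type*} [AddCommGroup N] [Module k N]

section

variable (ρ : G → N →ₗ[k] N) (W : Submodule k N) (h : N)

/-- `(a, w) ↦ d (a • h + w)`. -/
def delta : (k × W) →ₗ[k] (G → N) where
  toFun x := fun g => ρ g (x.1 • h + (x.2 : N)) - (x.1 • h + (x.2 : N))
  map_add' x y := by
    funext g
    simp only [Prod.fst_add, Prod.snd_add, Submodule.coe_add, add_smul, map_add, Pi.add_apply]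
    abel
  map_smul' a x := by
    funext g
    simp only [Prod.smul_fst, Prod.smul_snd, Submodule.coe_smul, smul_eq_mul, mul_smul,
      RingHom.id_apply, Pi.smul_apply, ← smul_add, map_smul, smul_sub]

theorem delta_apply (x : k × W) (g : G) :
    delta ρ W h x g = ρ g (x.1 • h + (x.2 : N)) - (x.1 • h + (x.2 : N)) := rfl

variable {ρ W h}

/-- The kernel of `delta` injects into the invariants. -/
theorem card_ker_delta_le [Finite N] (hh : h ∉ W) :
    Nat.card (LinearMap.ker (delta ρ W h)) ≤ Nat.card {n : N // ∀ g, ρ g n = n} := by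
  let f : LinearMap.ker (delta ρ W h) → {n : N // ∀ g, ρ g n = n} := fun x =>
    ⟨x.1.1 • h + (x.1.2 : N), fun g => by
      have h1 := congrFun (LinearMap.mem_ker.1 x.2) g
      rw [delta_apply, Pi.zero_apply, sub_eq_zero] at h1
      exact h1⟩
  have hf : Function.Injective f := by
    rintro ⟨⟨a, w⟩, hx⟩ ⟨⟨a', w'⟩, hy⟩ hxy
    have h1 : a • h + (w : N) = a' • h + (w' : N) := congrArg Subtype.val hxy
    have h2 : (a - a') • h = (w' : N) - w := by
      rw [sub_smul]
      have : a • h - a' • h = (a • h + (w : N)) - (a' • h + (w' : N)) + ((w' : N) - w) := by abel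
      rw [this, h1]
      abel
    have ha : a = a' := by
      by_contra hne
      have hne' : a - a' ≠ 0 := sub_ne_zero.2 hne
      apply hh
      have h3 : h = (a - a')⁻¹ • ((w' : N) - w) := by
        rw [← h2, smul_smul, inv_mul_cancel₀ hne', one_smul]
      rw [h3]
      exact W.smul_mem _ (W.sub_mem w'.2 w.2)
    subst ha
    have hw : (w : N) = w' := add_left_cancel h1
    have hw' : w = w' := Subtype.ext hw
    subst hw'
    rfl
  exact Nat.card_le_card_of_injective f hf

end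

/-- **The devissage count.** -/
theorem card_quotient_le [Finite k] [Finite N] (ρ : G → N →ₗ[k] N) (W : Submodule k N)
    (hWcard : Nat.card W = Nat.card k) (h : N) (hh : h ∉ W)
    (B ZW : Submodule k (G → N)) [Finite ZW]
    (hd : ∀ x : k × W, delta ρ W h x ∈ B ⊓ ZW)
    (hZW : Nat.card ZW ≤ Nat.card k ^ 3)
    (Lc : Submodule k (G → N)) (hLc : Lc ≤ B ⊔ ZW) :
    Finite (↥Lc ⧸ B.comap Lc.subtype) ∧
      Nat.card (↥Lc ⧸ B.comap Lc.subtype) ≤
        Nat.card k * Nat.card {n : N // ∀ g, ρ g n = n} := by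
  classical
  -- the two maps to `(G → N) ⧸ B`
  let ψ : ↥Lc →ₗ[k] (G → N) ⧸ B := B.mkQ ∘ₗ Lc.subtype
  let φ : ↥ZW →ₗ[k] (G → N) ⧸ B := B.mkQ ∘ₗ ZW.subtype
  have hkerψ : LinearMap.ker ψ = B.comap Lc.subtype := by
    rw [LinearMap.ker_comp, Submodule.ker_mkQ]
  have hkerφ : LinearMap.ker φ = B.comap ZW.subtype := by
    rw [LinearMap.ker_comp, Submodule.ker_mkQ]
  have hfinφ : Finite (LinearMap.range φ) := Finite.of_surjective φ.rangeRestrict
    (LinearMap.surjective_rangeRestrict φ)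
  have hle : LinearMap.range ψ ≤ LinearMap.range φ := by
    rintro _ ⟨x, rfl⟩
    obtain ⟨b, hb, z, hz, hbz⟩ := Submodule.mem_sup.1 (hLc x.2)
    refine ⟨⟨z, hz⟩, ?_⟩
    show B.mkQ z = B.mkQ (x : G → N)
    have hb0 : B.mkQ b = 0 := (Submodule.Quotient.mk_eq_zero B).2 hb
    rw [← hbz, map_add, hb0, zero_add]
  have hfinψ : Finite (LinearMap.range ψ) :=
    Finite.of_injective (Submodule.inclusion hle) (Submodule.inclusion_injective hle)
  have hfinQ : Finite (↥Lc ⧸ B.comap Lc.subtype) := by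
    rw [← hkerψ]
    exact Finite.of_equiv _ (LinearMap.quotKerEquivRange ψ).toEquiv.symm
  refine ⟨hfinQ, ?_⟩
  -- `#(Lc / B ∩ Lc) ≤ #(ZW / B ∩ ZW)`
  have h1 : Nat.card (↥Lc ⧸ B.comap Lc.subtype) ≤ Nat.card (↥ZW ⧸ LinearMap.ker φ) := by
    rw [← hkerψ, Nat.card_congr (LinearMap.quotKerEquivRange ψ).toEquiv,
      Nat.card_congr (LinearMap.quotKerEquivRange φ).toEquiv]
    exact Nat.card_le_card_of_injective (Submodule.inclusion hle) (Submodule.inclusion_injective hle)
  -- `#ZW = #(B ∩ ZW) * #(ZW / B ∩ ZW)`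
  have h2 := Submodule.card_eq_card_quotient_mul_card (LinearMap.ker φ)
  -- `#(k × W) = #ker δ * #range δ`, `#range δ ≤ #(B ∩ ZW)`
  have h3 := Submodule.card_eq_card_quotient_mul_card (LinearMap.ker (delta ρ W h))
  rw [Nat.card_congr (LinearMap.quotKerEquivRange (delta ρ W h)).toEquiv, Nat.card_prod, hWcard]
    at h3
  have h4 : Nat.card (LinearMap.range (delta ρ W h)) ≤ Nat.card (LinearMap.ker φ) := by
    let j : LinearMap.range (delta ρ W h) → LinearMap.ker φ := fun y =>
      ⟨⟨y.1, by obtain ⟨x, hx⟩ := y.2; rw [← hx]; exact (hd x).2⟩, by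
        rw [hkerφ]
        obtain ⟨x, hx⟩ := y.2
        show y.1 ∈ B
        rw [← hx]; exact (hd x).1⟩
    have hj : Function.Injective j := by
      intro y y' hyy
      apply Subtype.ext
      exact congrArg (fun u : LinearMap.ker φ => ((u : ZW) : G → N)) hyy
    exact Nat.card_le_card_of_injective j hj
  have h5 := card_ker_delta_le (ρ := ρ) (W := W) hh
  -- arithmetic
  set Q := Nat.card (↥ZW ⧸ LinearMap.ker φ)
  set K := Nat.card k
  set I := Nat.card {n : N // ∀ g, ρ g n = n}
  set a := Nat.card (LinearMap.ker φ)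
  set r := Nat.card (LinearMap.range (delta ρ W h))
  set c := Nat.card (LinearMap.ker (delta ρ W h))
  have hK : 0 < K := Nat.card_pos
  -- K*K = c*r ≤ I * a ;  a * Q = #ZW ≤ K^3
  have h6 : K * K ≤ I * a := by
    rw [h3]; exact Nat.mul_le_mul h5 h4
  have h7 : a * Q ≤ K ^ 3 := by rw [← h2]; exact hZW
  have h8 : Q * (K * K) ≤ (K * I) * (K * K) := by
    calc Q * (K * K) ≤ Q * (I * a) := Nat.mul_le_mul_left _ h6
      _ = I * (a * Q) := by ring
      _ ≤ I * K ^ 3 := Nat.mul_le_mul_left _ h7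
      _ = (K * I) * (K * K) := by ring
  exact h1.trans (Nat.le_of_mul_le_mul_right h8 (Nat.mul_pos hK hK))

end Fermat.Agent.S56.Ord.Count
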