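/-
PROJECT T (S56), block (a2) = S56/Ord (helper6), leaf (O-K), part 2: `μ_p(ℚ_p) = 1` for `p` odd and
`[ℚ_pˣ : (ℚ_pˣ)^p] = p ^ 2` (from main's `CFT/Local/PowIndexModel.card_quotient_pow_q`).
-/
import Fermat.Agent.CFT.Local.PowIndexModel

set_option autoImplicit false

namespace Fermat.Agent.S56.Ord.MuQp

open Finset

variable {p : ℕ} [hp : Fact p.Prime]

/-- In `ℤ_p`, `p` odd, `1 + p t` has `p`-th power `1` only for `t = 0`. -/
theorem eq_zero_of_one_add_pow_eq_one (hp2 : p ≠ 2) {t : ℤ_[p]} (h : (1 + (p : ℤ_[p]) * t) ^ p = 1) :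
    t = 0 := by
  have hodd : Odd p := hp.out.odd_of_ne_two hp2
  obtain ⟨s, hs⟩ := odd_sq_dvd_geom_sum₂_sub (R := ℤ_[p]) (1 : ℤ_[p]) t hodd
  simp only [one_pow, mul_one] at hs
  have hgeom : (∑ i ∈ range p, (1 + (p : ℤ_[p]) * t) ^ i) = (p : ℤ_[p]) * (1 + p * s) := by
    have : (∑ i ∈ range p, (1 + (p : ℤ_[p]) * t) ^ i) = (p : ℤ_[p]) + (p : ℤ_[p]) ^ 2 * s := by
      rw [← hs]; ring
    rw [this]; ring
  have h1 := mul_geom_sum (1 + (p : ℤ_[p]) * t) p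
  rw [h, sub_self, hgeom] at h1
  have hp0 : (p : ℤ_[p]) ≠ 0 := by exact_mod_cast hp.out.ne_zero
  have hu : (1 + (p : ℤ_[p]) * s) ≠ 0 := by
    intro h0
    have h2 := congrArg PadicInt.toZMod h0
    rw [map_add, map_mul, map_one, map_natCast, ZMod.natCast_self, zero_mul, add_zero, map_zero] at h2
    exact one_ne_zero h2
  have h3 : (1 + (p : ℤ_[p]) * t - 1) = p * t := by ring
  rw [h3] at h1
  rcases mul_eq_zero.1 h1 with h4 | h4
  · exact (mul_eq_zero.1 h4).resolve_left hp0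
  · exact absurd h4 (mul_ne_zero hp0 hu)

/-- `μ_p(ℚ_p) = 1` for an odd prime `p`. -/
theorem eq_one_of_pow_eq_one (hp2 : p ≠ 2) {x : ℚ_[p]} (hx : x ^ p = 1) : x = 1 := by
  have hn : ‖x‖ = 1 := by
    have h1 := congrArg norm hx
    rw [norm_pow, norm_one] at h1
    exact (pow_eq_one_iff_of_nonneg (norm_nonneg x) hp.out.ne_zero).1 h1
  let z : ℤ_[p] := ⟨x, hn.le⟩
  have hz : z ^ p = 1 := by
    apply Subtype.ext
    push_cast
    exact hx
  suffices hz1 : z = 1 by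
    have := congrArg Subtype.val hz1
    simpa [z] using this
  have h1 : PadicInt.toZMod z = 1 := by
    have h2 := congrArg PadicInt.toZMod hz
    rw [map_pow, map_one, ZMod.pow_card] at h2
    exact h2
  have h2 : z - 1 ∈ RingHom.ker (PadicInt.toZMod (p := p)) := by
    rw [RingHom.mem_ker, map_sub, h1, map_one, sub_self]
  rw [PadicInt.ker_toZMod, PadicInt.maximalIdeal_eq_span_p, Ideal.mem_span_singleton] at h2
  obtain ⟨t, ht⟩ := h2
  have hz' : z = 1 + (p : ℤ_[p]) * t := by rw [← ht]; ring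
  have ht0 : t = 0 := eq_zero_of_one_add_pow_eq_one hp2 (by rw [← hz', hz])
  rw [hz', ht0, mul_zero, add_zero]

theorem card_rootsOfUnity (hp2 : p ≠ 2) : Nat.card (rootsOfUnity p ℚ_[p]) = 1 := by
  rw [Nat.card_eq_one_iff_unique]
  refine ⟨⟨fun a b => ?_⟩, ⟨1⟩⟩
  have h : ∀ u : rootsOfUnity p ℚ_[p], u = 1 := by
    rintro ⟨u, hu⟩
    apply Subtype.ext
    apply Units.ext
    rw [mem_rootsOfUnity] at hu
    have h1 : ((u : ℚ_[p]ˣ) : ℚ_[p]) ^ p = 1 := by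
      rw [← Units.val_pow_eq_pow_val, hu, Units.val_one]
    exact eq_one_of_pow_eq_one hp2 h1
  rw [h a, h b]

/-- `[ℚ_pˣ : (ℚ_pˣ)^p] = p ^ 2` for an odd prime `p`. -/
theorem card_quotient_pow (hp2 : p ≠ 2) :
    Nat.card (ℚ_[p]ˣ ⧸ (powMonoidHom p : ℚ_[p]ˣ →* ℚ_[p]ˣ).range) = p ^ 2 := by
  have h := Fermat.Agent.CFT.Local.PowIndexModel.card_quotient_pow_q p ℚ_[p]
  rw [Module.finrank_self, card_rootsOfUnity hp2] at h
  rw [h]
  ring

theorem finite_quotient_pow :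
    Finite (ℚ_[p]ˣ ⧸ (powMonoidHom p : ℚ_[p]ˣ →* ℚ_[p]ˣ).range) :=
  Fermat.Agent.CFT.Local.PowIndexModel.finite_quotient_pow p ℚ_[p] hp.out.ne_zero

end Fermat.Agent.S56.Ord.MuQp
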