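/-
PROJECT T (S56), block (a2) = S56/Ord (helper6), leaf (O-K), part 3: THE LOCAL KUMMER BOUND AT `p`

  `#{locally constant crossed homomorphisms D_p → k(ω)} ≤ (#k)^3`

for the decomposition group `D_p` of `padicPlace p` (`p` odd), `k` a finite field of characteristic
`p`, `ω` the mod `p` cyclotomic character.  (`h¹(ℚ_p, μ_p) = 2`, `b¹ = 1`.)

Chain: `D_p ≃ Gal(ℚ̄_p/ℚ_p)` (main's `CFT/LocalBridge`), Hilbert 90 (`KummerH90`),
`[ℚ_pˣ : (ℚ_pˣ)^p] = p^2` (`MuQp`, from main's `CFT/Local/PowIndexModel`), coordinates over `𝔽_p`.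
-/
import Fermat.Agent.S56.Ord.KummerH90
import Fermat.Agent.S56.Ord.MuQp
import Fermat.Agent.CFT.LocalBridge.Decomposition

set_option autoImplicit false
set_option linter.unusedSectionVars false

namespace Fermat.Agent.S56.Ord.KummerP

open Fermat.Agent.CFT.LocalBridge Fermat.Agent.S56.Ord.KummerH90

local notation "Qbar" => AlgebraicClosure ℚ
local notation "GQ" => (AlgebraicClosure ℚ ≃ₐ[ℚ] AlgebraicClosure ℚ)

variable (p : ℕ) [hp : Fact p.Prime]

/-- The decomposition group of the fixed place over `p`. -/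
noncomputable abbrev Dp : Subgroup GQ := (padicPlace p).decompositionSubgroup ℚ

/-- Locally constant crossed homomorphisms `D_p → X(θ)` (`X` a ring, `θ : D_p → X`). -/
def IsCrossD {X : Type*} [Ring X] (θ : ↥(Dp p) → X) (c : ↥(Dp p) → X) : Prop :=
  (∀ s t, c (s * t) = θ s * c t + c s) ∧
    ∃ F : IntermediateField ℚ Qbar, FiniteDimensional ℚ F ∧
      ∀ s t : ↥(Dp p), (t : GQ) ∈ F.fixingSubgroup → c (s * t) = c s

/-- The map `Gal(ℚ̄_p/ℚ_p) → D_p`. -/
noncomputable def toDp (τ : LocGal p) : ↥(Dp p) :=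
  ⟨localGaloisToGlobal p τ, localGaloisToGlobal_mem_decompositionSubgroup p τ⟩

theorem toDp_mul (σ τ : LocGal p) : toDp p (σ * τ) = toDp p σ * toDp p τ :=
  Subtype.ext (map_mul (localGaloisToGlobal p) σ τ)

theorem toDp_surjective : Function.Surjective (toDp p) := by
  rintro ⟨s, hs⟩
  have h : s ∈ (localGaloisToGlobal p).range := by
    rw [range_localGaloisToGlobal]; exact hs
  obtain ⟨τ, rfl⟩ := h
  exact ⟨τ, rfl⟩

variable {p}

theorem isCross_comp {ω c : ↥(Dp p) → ZMod p} (hc : IsCrossD p ω c) :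
    IsCross (K := ℚ_[p]) (Ω := PadicAlgCl p) (fun τ => ω (toDp p τ)) (fun τ => c (toDp p τ)) := by
  obtain ⟨h1, F, hF, h2⟩ := hc
  have := hF
  refine ⟨fun σ τ => ?_, localLevel p F, inferInstance, fun σ τ hτ => ?_⟩
  · show c (toDp p (σ * τ)) = ω (toDp p σ) * c (toDp p τ) + c (toDp p σ)
    rw [toDp_mul, h1]
  · show c (toDp p (σ * τ)) = c (toDp p σ)
    rw [toDp_mul]
    exact h2 _ _ ((mem_fixingSubgroup_localLevel_iff p F τ).1 hτ)

/-- **(O-K) over `𝔽_p`**: at most `p^3` locally constant crossed homomorphisms `D_p → 𝔽_p(ω)`. -/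
theorem card_isCrossD_zmod_le (hp2 : p ≠ 2) (ω : ↥(Dp p) → ZMod p)
    (hω : ∀ (s : ↥(Dp p)) (μ : Qbar), μ ^ p = 1 → (s : GQ) μ = μ ^ (ω s).val) :
    Finite {c : ↥(Dp p) → ZMod p // IsCrossD p ω c} ∧
      Nat.card {c : ↥(Dp p) → ZMod p // IsCrossD p ω c} ≤ p ^ 3 := by
  obtain ⟨ζ0, hζ0⟩ : ∃ ζ : Qbar, IsPrimitiveRoot ζ p := by
    have : NeZero (p : ℚ) := ⟨Nat.cast_ne_zero.2 hp.out.ne_zero⟩
    exact HasEnoughRootsOfUnity.exists_primitiveRoot Qbar p
  have hζ : IsPrimitiveRoot (padicEmbedding p ζ0) p :=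
    hζ0.map_of_injective (padicEmbedding_injective p)
  have hω' : ∀ τ : LocGal p,
      τ (padicEmbedding p ζ0) = zp (padicEmbedding p ζ0) (ω (toDp p τ)) := by
    intro τ
    rw [← padicEmbedding_localGaloisToGlobal, zp, ← map_pow]
    congr 1
    exact hω (toDp p τ) ζ0 hζ0.pow_eq_one
  have := MuQp.finite_quotient_pow (p := p)
  let Φ : {c : ↥(Dp p) → ZMod p // IsCrossD p ω c} →
      {c : LocGal p → ZMod p // IsCross (K := ℚ_[p]) (Ω := PadicAlgCl p)
        (fun τ => ω (toDp p τ)) c} :=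
    fun c => ⟨fun τ => c.1 (toDp p τ), isCross_comp c.2⟩
  have hinj : Function.Injective Φ := by
    intro c c' h
    apply Subtype.ext
    funext s
    obtain ⟨τ, rfl⟩ := toDp_surjective p s
    exact congrFun (congrArg Subtype.val h) τ
  have hfin := finite_isCross hζ (fun τ => ω (toDp p τ)) hω'
  have hcard := card_isCross_le hζ (fun τ => ω (toDp p τ)) hω'
  rw [MuQp.card_quotient_pow hp2] at hcard
  exact ⟨Finite.of_injective Φ hinj, (Nat.card_le_card_of_injective Φ hinj).trans hcard⟩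

/-! ### Coordinates over `𝔽_p` -/

theorem pow_mod_of_pow_eq_one {x : Qbar} (hx : x ^ p = 1) (m : ℕ) : x ^ (m % p) = x ^ m := by
  conv_rhs => rw [← Nat.mod_add_div m p]
  rw [pow_add, pow_mul, hx, one_pow, mul_one]

/-- The mod `p` cyclotomic character of an element of `Gal(ℚ̄/ℚ)`. -/
theorem exists_omega (s : GQ) : ∃ i : ZMod p, ∀ μ : Qbar, μ ^ p = 1 → s μ = μ ^ i.val := by
  obtain ⟨ζ0, hζ0⟩ : ∃ ζ : Qbar, IsPrimitiveRoot ζ p := by
    have : NeZero (p : ℚ) := ⟨Nat.cast_ne_zero.2 hp.out.ne_zero⟩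
    exact HasEnoughRootsOfUnity.exists_primitiveRoot Qbar p
  have h1 : (s ζ0) ^ p = 1 := by rw [← map_pow, hζ0.pow_eq_one, map_one]
  obtain ⟨i, -, hi⟩ := hζ0.eq_pow_of_pow_eq_one h1
  refine ⟨(i : ZMod p), fun μ hμ => ?_⟩
  obtain ⟨j, -, rfl⟩ := hζ0.eq_pow_of_pow_eq_one hμ
  rw [ZMod.val_natCast, pow_mod_of_pow_eq_one hμ, map_pow, ← hi, ← pow_mul, ← pow_mul, mul_comm]

section Field

variable {k : Type*} [Field k] [Algebra (ZMod p) k]

theorem isCrossD_coord {ι : Type*} (b : Module.Basis ι (ZMod p) k) {θ : ↥(Dp p) → k}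
    {ω : ↥(Dp p) → ZMod p} (h : ∀ s x, θ s * x = ω s • x) {c : ↥(Dp p) → k}
    (hc : IsCrossD p θ c) (i : ι) : IsCrossD p ω (fun s => b.repr (c s) i) := by
  obtain ⟨h1, F, hF, h2⟩ := hc
  refine ⟨fun s t => ?_, F, hF, fun s t ht => ?_⟩
  · show b.repr (c (s * t)) i = ω s * b.repr (c t) i + b.repr (c s) i
    rw [h1, h, map_add, map_smul, Finsupp.add_apply, Finsupp.smul_apply, smul_eq_mul]
  · show b.repr (c (s * t)) i = b.repr (c s) i
    rw [h2 s t ht]

end Field

/-- **Leaf (O-K)**: for a finite field `k` of characteristic `p` (odd) and `θ : D_p → k` the mod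
`p` cyclotomic character, there are at most `(#k)^3` locally constant crossed homomorphisms
`D_p → k(θ)`. -/
theorem card_isCrossD_le {k : Type*} [Field k] [Finite k] [CharP k p] (hp2 : p ≠ 2)
    (θ : ↥(Dp p) → k)
    (hθ : ∀ (s : ↥(Dp p)) (a : ℕ), (∀ μ : Qbar, μ ^ p = 1 → (s : GQ) μ = μ ^ a) → θ s = a) :
    Finite {c : ↥(Dp p) → k // IsCrossD p θ c} ∧
      Nat.card {c : ↥(Dp p) → k // IsCrossD p θ c} ≤ Nat.card k ^ 3 := by
  classical
  choose ω hω using fun s : ↥(Dp p) => exists_omega (p := p) (s : GQ)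
  have hθω : ∀ s, θ s = ((ω s).val : k) := fun s => hθ s _ (hω s)
  let : Algebra (ZMod p) k := ZMod.algebra k p
  have hθω' : ∀ s (x : k), θ s * x = (ω s) • x := by
    intro s x
    rw [Algebra.smul_def, hθω]
    congr 1
    rw [← map_natCast (algebraMap (ZMod p) k), ZMod.natCast_zmod_val]
  have : Module.Finite (ZMod p) k := Module.Finite.of_finite
  let b := Module.finBasis (ZMod p) k
  obtain ⟨hfin, hcard⟩ := card_isCrossD_zmod_le hp2 ω hω
  let Φ : {c : ↥(Dp p) → k // IsCrossD p θ c} →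
      (Fin (Module.finrank (ZMod p) k) → {c : ↥(Dp p) → ZMod p // IsCrossD p ω c}) :=
    fun c i => ⟨fun s => b.repr (c.1 s) i, isCrossD_coord b hθω' c.2 i⟩
  have hinj : Function.Injective Φ := by
    intro c c' h
    apply Subtype.ext
    funext s
    apply b.repr.injective
    ext i
    exact congrFun (congrArg Subtype.val (congrFun h i)) s
  refine ⟨Finite.of_injective Φ hinj, (Nat.card_le_card_of_injective Φ hinj).trans ?_⟩
  rw [Nat.card_fun, Nat.card_eq_fintype_card (α := Fin _), Fintype.card_fin,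
    Module.natCard_eq_pow_finrank (K := ZMod p) (V := k), Nat.card_zmod, ← pow_mul, mul_comm,
    pow_mul]
  exact Nat.pow_le_pow_left hcard _

end Fermat.Agent.S56.Ord.KummerP
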