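/-
PROJECT T (S56), block (a2) = S56/Ord (helper6), file [O1]: THE `2 × 2` ALGEBRA OF A STRICT-ORDINARY
LIFT TO THE DUAL NUMBERS (no Galois theory).

`k` a field, `vb ≠ 0` a vector of `k²` (the line `L̄ = k vb`).
* `E vb`     : the rank-one trace-zero matrix `vb φᵀ`, `φ u = det [vb, u]`;
               `W0 = k ∙ E vb = Hom(k² / L̄, L̄)`;
* `mem_span_E` : a matrix killing `vb` with image in `k vb` is a multiple of `E vb`;
* `hh vb`    : a trace-zero matrix fixing `vb` and acting by `-1` on `k² / k vb`;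
* `corrected_cocycle` : the key computation: if `R = Rb + ε C₁` has `v = vb + ε v1` as an
  eigenvector with CONSTANT eigenvalue `x` and acts on the quotient by the CONSTANT `z`, then for
  every `Y` with `Y vb = v1` the corrected value `C₁ Rb⁻¹ + Rb Y Rb⁻¹ - Y` lies in `W0`;
* `snd_eq_zero_of_sq_eq_one` : rigidity `z² = 1 ⇒ z` constant in `k[ε]` (`2 ≠ 0`);
* `fst_mulVec`, `snd_mulVec` : components of `R *ᵥ v` over the dual numbers.
-/
import Fermat.Agent.S53.TangentBound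

set_option autoImplicit false
set_option linter.unusedSectionVars false

namespace Fermat.Agent.S56.Ord.Shape

open Matrix Fermat.Agent.S53.TangentBound

variable {k : Type} [Field k]

/-! ### the line `W0` -/

/-- `φ u = det [vb, u]`. -/
def phi (vb u : Fin 2 → k) : k := vb 0 * u 1 - vb 1 * u 0

theorem phi_self (vb : Fin 2 → k) : phi vb vb = 0 := by
  rw [phi]; ring

theorem phi_add (vb u w : Fin 2 → k) : phi vb (u + w) = phi vb u + phi vb w := by
  simp only [phi, Pi.add_apply]; ring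

theorem phi_smul (vb : Fin 2 → k) (c : k) (u : Fin 2 → k) : phi vb (c • u) = c * phi vb u := by
  simp only [phi, Pi.smul_apply, smul_eq_mul]; ring

theorem phi_sub (vb u w : Fin 2 → k) : phi vb (u - w) = phi vb u - phi vb w := by
  simp only [phi, Pi.sub_apply]; ring

theorem exists_phi_ne_zero {vb : Fin 2 → k} (h : vb ≠ 0) : ∃ u, phi vb u ≠ 0 := by
  by_cases h0 : vb 0 = 0
  · have h1 : vb 1 ≠ 0 := by
      intro h1
      apply h
      funext i
      fin_cases i
      · exact h0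
      · exact h1
    refine ⟨![1, 0], ?_⟩
    simp [phi, h1]
  · refine ⟨![0, 1], ?_⟩
    simp [phi, h0]

/-- The matrix `vb φᵀ`. -/
def E (vb : Fin 2 → k) : Matrix (Fin 2) (Fin 2) k :=
  !![-(vb 0 * vb 1), vb 0 * vb 0; -(vb 1 * vb 1), vb 0 * vb 1]

theorem E_mulVec (vb u : Fin 2 → k) : E vb *ᵥ u = phi vb u • vb := by
  funext i
  fin_cases i
  · simp [E, phi, Matrix.mulVec, dotProduct, Fin.sum_univ_two]; ring
  · simp [E, phi, Matrix.mulVec, dotProduct, Fin.sum_univ_two]; ring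

theorem trace_E (vb : Fin 2 → k) : (E vb).trace = 0 := by
  simp [E, Matrix.trace_fin_two]

theorem E_ne_zero {vb : Fin 2 → k} (h : vb ≠ 0) : E vb ≠ 0 := by
  obtain ⟨u, hu⟩ := exists_phi_ne_zero h
  intro h0
  have h1 := E_mulVec vb u
  rw [h0, Matrix.zero_mulVec] at h1
  have h2 := smul_eq_zero.1 h1.symm
  rcases h2 with h2 | h2
  · exact hu h2
  · exact h h2

/-- two vectors with the same coordinates in the "basis" `(vb, ·)`: if `u` has `phi vb u = 0` then
`u` is a multiple of `vb` -/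
theorem exists_smul_of_phi_eq_zero {vb : Fin 2 → k} (h : vb ≠ 0) {u : Fin 2 → k}
    (hu : phi vb u = 0) : ∃ c : k, u = c • vb := by
  rw [phi, sub_eq_zero] at hu
  by_cases h0 : vb 0 = 0
  · have h1 : vb 1 ≠ 0 := by
      intro h1
      apply h
      funext i
      fin_cases i
      · exact h0
      · exact h1
    rw [h0, zero_mul] at hu
    have hu0 : u 0 = 0 := by
      rcases mul_eq_zero.1 hu.symm with h2 | h2
      · exact absurd h2 h1
      · exact h2
    refine ⟨u 1 / vb 1, ?_⟩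
    funext i
    fin_cases i
    · simp [hu0, h0]
    · simp [h1]
  · refine ⟨u 0 / vb 0, ?_⟩
    funext i
    fin_cases i
    · simp [h0]
    · simp only [Fin.mk_one, Fin.isValue, Pi.smul_apply, smul_eq_mul]
      field_simp
      linear_combination hu

/-- A matrix killing `vb` with image in `k vb` is a multiple of `E vb`. -/
theorem eq_smul_E {vb : Fin 2 → k} (h : vb ≠ 0) {m : Matrix (Fin 2) (Fin 2) k}
    (h1 : m *ᵥ vb = 0) (h2 : ∀ u, ∃ c : k, m *ᵥ u = c • vb) : ∃ c : k, m = c • E vb := by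
  obtain ⟨w, hw⟩ := exists_phi_ne_zero h
  obtain ⟨c, hc⟩ := h2 w
  refine ⟨c / phi vb w, ?_⟩
  -- both sides agree on `vb` and on `w`, which span `k²`
  have hspan : ∀ u : Fin 2 → k, ∃ a b : k, u = a • vb + b • w := by
    intro u
    have h3 : phi vb (u - (phi vb u / phi vb w) • w) = 0 := by
      rw [phi_sub, phi_smul, div_mul_cancel₀ _ hw, sub_self]
    obtain ⟨a, ha⟩ := exists_smul_of_phi_eq_zero h h3
    exact ⟨a, phi vb u / phi vb w, by rw [← ha]; abel⟩
  apply Matrix.toLin'.injective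
  apply LinearMap.ext
  intro u
  obtain ⟨a, b, rfl⟩ := hspan u
  simp only [Matrix.toLin'_apply, Matrix.mulVec_add, Matrix.mulVec_smul, Matrix.smul_mulVec,
    h1, hc, E_mulVec, phi_self, smul_zero, zero_smul, zero_add]
  rw [smul_smul, smul_smul, smul_smul, mul_assoc, div_mul_cancel₀ _ hw]

/-! ### the element `h` -/

/-- a linear form `ψ` with `ψ vb = 1` (coordinates) -/
noncomputable def psi (vb : Fin 2 → k) : Fin 2 → k := by
  classical
  exact if vb 0 = 0 then ![0, (vb 1)⁻¹] else ![(vb 0)⁻¹, 0]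

theorem psi_dot {vb : Fin 2 → k} (h : vb ≠ 0) : psi vb 0 * vb 0 + psi vb 1 * vb 1 = 1 := by
  classical
  by_cases h0 : vb 0 = 0
  · have h1 : vb 1 ≠ 0 := by
      intro h1
      apply h
      funext i
      fin_cases i
      · exact h0
      · exact h1
    simp [psi, h0, h1]
  · simp [psi, h0]

/-- `hh vb = 2 vb ψᵀ - 1`: fixes `vb`, acts by `-1` on `k² / k vb`, trace zero. -/
noncomputable def hh (vb : Fin 2 → k) : Matrix (Fin 2) (Fin 2) k :=
  !![2 * (vb 0 * psi vb 0) - 1, 2 * (vb 0 * psi vb 1); 2 * (vb 1 * psi vb 0),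
    2 * (vb 1 * psi vb 1) - 1]

theorem hh_mulVec (vb u : Fin 2 → k) :
    hh vb *ᵥ u = (2 * (psi vb 0 * u 0 + psi vb 1 * u 1)) • vb - u := by
  funext i
  fin_cases i
  · simp [hh, Matrix.mulVec, dotProduct, Fin.sum_univ_two]; ring
  · simp [hh, Matrix.mulVec, dotProduct, Fin.sum_univ_two]; ring

theorem hh_mulVec_self {vb : Fin 2 → k} (h : vb ≠ 0) : hh vb *ᵥ vb = vb := by
  rw [hh_mulVec, psi_dot h, mul_one, two_smul]
  abel

theorem trace_hh {vb : Fin 2 → k} (h : vb ≠ 0) : (hh vb).trace = 0 := by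
  have := psi_dot h
  simp only [hh, Matrix.trace_fin_two, Matrix.of_apply, Matrix.cons_val', Matrix.cons_val_zero,
    Matrix.cons_val_one, Matrix.empty_val', Matrix.cons_val_fin_one]
  linear_combination 2 * this

/-! ### the key computation -/

/-- **The corrected cocycle value lies in `W0`.** -/
theorem corrected_cocycle {vb v1 : Fin 2 → k} {Rb Rbi C1 Y : Matrix (Fin 2) (Fin 2) k} {x z : k}
    (hx : x ≠ 0) (hinv : Rbi * Rb = 1) (hinv' : Rb * Rbi = 1)
    (hF1a : Rb *ᵥ vb = x • vb) (hF1b : C1 *ᵥ vb + Rb *ᵥ v1 = x • v1)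
    (hF2 : ∀ u, ∃ α β : k, Rb *ᵥ u - z • u = α • vb ∧ C1 *ᵥ u = β • vb + α • v1)
    (hY : Y *ᵥ vb = v1) :
    (C1 * Rbi + Rb * Y * Rbi - Y) *ᵥ vb = 0 ∧
      ∀ u, ∃ c : k, (C1 * Rbi + Rb * Y * Rbi - Y) *ᵥ u = c • vb := by
  have hRbi : Rbi *ᵥ vb = x⁻¹ • vb := by
    have h1 : Rbi *ᵥ (Rb *ᵥ vb) = vb := by
      rw [Matrix.mulVec_mulVec, hinv, Matrix.one_mulVec]
    rw [hF1a, Matrix.mulVec_smul] at h1
    conv_rhs => rw [← h1]
    rw [smul_smul, inv_mul_cancel₀ hx, one_smul]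
  constructor
  · rw [Matrix.sub_mulVec, Matrix.add_mulVec, ← Matrix.mulVec_mulVec, ← Matrix.mulVec_mulVec,
      ← Matrix.mulVec_mulVec, hRbi, Matrix.mulVec_smul, Matrix.mulVec_smul, Matrix.mulVec_smul,
      hY, ← smul_add, hF1b, smul_smul, inv_mul_cancel₀ hx, one_smul, sub_self]
  · intro u
    obtain ⟨α, β, h1, h2⟩ := hF2 (Rbi *ᵥ u)
    obtain ⟨α', β', h3, -⟩ := hF2 (Y *ᵥ (Rbi *ᵥ u))
    have h4 : Rb *ᵥ (Rbi *ᵥ u) = u := by
      rw [Matrix.mulVec_mulVec, hinv', Matrix.one_mulVec]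
    refine ⟨β + α', ?_⟩
    rw [Matrix.sub_mulVec, Matrix.add_mulVec, ← Matrix.mulVec_mulVec, ← Matrix.mulVec_mulVec,
      ← Matrix.mulVec_mulVec, h2]
    have h5 : Y *ᵥ u = z • (Y *ᵥ (Rbi *ᵥ u)) + α • v1 := by
      have : u = z • (Rbi *ᵥ u) + α • vb := by
        rw [← h1, h4]; abel
      conv_lhs => rw [this]
      rw [Matrix.mulVec_add, Matrix.mulVec_smul, Matrix.mulVec_smul, hY]
    rw [h5, add_smul, ← h3]
    abel

/-- a trace-zero matrix sending `vb` to a prescribed vector -/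
theorem exists_trace_zero_mulVec {vb : Fin 2 → k} (h : vb ≠ 0) (v1 : Fin 2 → k) :
    ∃ Y : Matrix (Fin 2) (Fin 2) k, Y.trace = 0 ∧ Y *ᵥ vb = v1 := by
  have hψ := psi_dot h
  set t : k := psi vb 0 * v1 0 + psi vb 1 * v1 1 with ht
  refine ⟨!![v1 0 * psi vb 0 - t * (1 - vb 0 * psi vb 0), v1 0 * psi vb 1 + t * (vb 0 * psi vb 1);
    v1 1 * psi vb 0 + t * (vb 1 * psi vb 0), v1 1 * psi vb 1 - t * (1 - vb 1 * psi vb 1)], ?_, ?_⟩
  · simp only [Matrix.trace_fin_two, Matrix.of_apply, Matrix.cons_val', Matrix.cons_val_zero,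
      Matrix.cons_val_one, Matrix.empty_val', Matrix.cons_val_fin_one]
    rw [ht]
    linear_combination (psi vb 0 * v1 0 + psi vb 1 * v1 1) * hψ
  · funext i
    fin_cases i
    · simp [Matrix.mulVec, dotProduct, Fin.sum_univ_two]
      linear_combination (v1 0 + t * vb 0) * hψ
    · simp [Matrix.mulVec, dotProduct, Fin.sum_univ_two]
      linear_combination (v1 1 + t * vb 1) * hψ

/-- conjugation by a matrix preserving the flag `k vb ⊂ k²` multiplies `E vb` by `x / z` -/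
theorem conj_E {vb : Fin 2 → k} {Rb Rbi : Matrix (Fin 2) (Fin 2) k} {x z : k}
    (hz : z ≠ 0) (hinv' : Rb * Rbi = 1)
    (hF1a : Rb *ᵥ vb = x • vb) (hF2 : ∀ u, ∃ α : k, Rb *ᵥ u - z • u = α • vb) :
    Rb * E vb * Rbi = (x * z⁻¹) • E vb := by
  apply Matrix.toLin'.injective
  apply LinearMap.ext
  intro u
  simp only [Matrix.toLin'_apply, Matrix.smul_mulVec]
  rw [← Matrix.mulVec_mulVec, ← Matrix.mulVec_mulVec, E_mulVec, E_mulVec, Matrix.mulVec_smul, hF1a,
    smul_smul, smul_smul]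
  congr 1
  obtain ⟨α, hα⟩ := hF2 (Rbi *ᵥ u)
  have h4 : Rb *ᵥ (Rbi *ᵥ u) = u := by
    rw [Matrix.mulVec_mulVec, hinv', Matrix.one_mulVec]
  have h5 : u = z • (Rbi *ᵥ u) + α • vb := by
    rw [← hα, h4]; abel
  have h6 : phi vb u = z * phi vb (Rbi *ᵥ u) := by
    conv_lhs => rw [h5]
    rw [phi_add, phi_smul, phi_smul, phi_self, mul_zero, add_zero]
  rw [h6]
  field_simp

/-- conjugation by a matrix preserving the flag moves `hh vb` by a multiple of `E vb` -/
theorem conj_hh {vb : Fin 2 → k} (h : vb ≠ 0) {Rb Rbi : Matrix (Fin 2) (Fin 2) k} {x : k}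
    (hx : x ≠ 0) (hinv : Rbi * Rb = 1) (hinv' : Rb * Rbi = 1)
    (hF1a : Rb *ᵥ vb = x • vb) :
    ∃ c : k, Rb * hh vb * Rbi - hh vb = c • E vb := by
  have hRbi : Rbi *ᵥ vb = x⁻¹ • vb := by
    have h1 : Rbi *ᵥ (Rb *ᵥ vb) = vb := by
      rw [Matrix.mulVec_mulVec, hinv, Matrix.one_mulVec]
    rw [hF1a, Matrix.mulVec_smul] at h1
    conv_rhs => rw [← h1]
    rw [smul_smul, inv_mul_cancel₀ hx, one_smul]
  apply eq_smul_E h
  · rw [Matrix.sub_mulVec, ← Matrix.mulVec_mulVec, ← Matrix.mulVec_mulVec, hRbi,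
      Matrix.mulVec_smul, Matrix.mulVec_smul, hh_mulVec_self h, hF1a, smul_smul,
      inv_mul_cancel₀ hx, one_smul, sub_self]
  · intro u
    have h4 : Rb *ᵥ (Rbi *ᵥ u) = u := by
      rw [Matrix.mulVec_mulVec, hinv', Matrix.one_mulVec]
    rw [Matrix.sub_mulVec, ← Matrix.mulVec_mulVec, ← Matrix.mulVec_mulVec, hh_mulVec, hh_mulVec,
      Matrix.mulVec_sub, Matrix.mulVec_smul, hF1a, h4, smul_smul]
    refine ⟨2 * (psi vb 0 * (Rbi *ᵥ u) 0 + psi vb 1 * (Rbi *ᵥ u) 1) * x -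
      2 * (psi vb 0 * u 0 + psi vb 1 * u 1), ?_⟩
    rw [sub_smul]
    abel

/-! ### dual numbers -/

theorem snd_eq_zero_of_sq_eq_one (h2 : (2 : k) ≠ 0) {z : DualNumber k} (hz : z * z = 1) :
    TrivSqZeroExt.snd z = 0 := by
  have h1 := congrArg TrivSqZeroExt.fst hz
  have h3 := congrArg TrivSqZeroExt.snd hz
  simp only [TrivSqZeroExt.fst_mul, TrivSqZeroExt.fst_one, TrivSqZeroExt.snd_mul,
    TrivSqZeroExt.snd_one, smul_eq_mul, MulOpposite.smul_eq_mul_unop, MulOpposite.unop_op] at h1 h3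
  have hf : TrivSqZeroExt.fst z ≠ 0 := by
    intro h0
    rw [h0, zero_mul] at h1
    exact zero_ne_one h1
  have h4 : (2 * TrivSqZeroExt.fst z) * TrivSqZeroExt.snd z = 0 := by
    linear_combination h3
  rcases mul_eq_zero.1 h4 with h5 | h5
  · exact absurd h5 (mul_ne_zero h2 hf)
  · exact h5

/-- first components of a vector over the dual numbers -/
def vfst (v : Fin 2 → DualNumber k) : Fin 2 → k := fun i => TrivSqZeroExt.fst (v i)

/-- second components of a vector over the dual numbers -/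
def vsnd (v : Fin 2 → DualNumber k) : Fin 2 → k := fun i => TrivSqZeroExt.snd (v i)

theorem vfst_mulVec (R : Matrix (Fin 2) (Fin 2) (DualNumber k)) (v : Fin 2 → DualNumber k) :
    vfst (R *ᵥ v) = mfst R *ᵥ vfst v := by
  funext i
  simp [vfst, Matrix.mulVec, dotProduct, Fin.sum_univ_two]

theorem vsnd_mulVec (R : Matrix (Fin 2) (Fin 2) (DualNumber k)) (v : Fin 2 → DualNumber k) :
    vsnd (R *ᵥ v) = mfst R *ᵥ vsnd v + msnd R *ᵥ vfst v := by
  funext i
  fin_cases i
  · simp [vsnd, vfst, Matrix.mulVec, dotProduct, Fin.sum_univ_two]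
    ring
  · simp [vsnd, vfst, Matrix.mulVec, dotProduct, Fin.sum_univ_two]
    ring

theorem vfst_smul (t : DualNumber k) (v : Fin 2 → DualNumber k) :
    vfst (t • v) = TrivSqZeroExt.fst t • vfst v := by
  funext i
  simp [vfst]

theorem vsnd_smul (t : DualNumber k) (v : Fin 2 → DualNumber k) :
    vsnd (t • v) = TrivSqZeroExt.fst t • vsnd v + TrivSqZeroExt.snd t • vfst v := by
  funext i
  simp [vsnd, vfst]

theorem vfst_sub (v w : Fin 2 → DualNumber k) : vfst (v - w) = vfst v - vfst w := by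
  funext i
  simp [vfst]

theorem vsnd_sub (v w : Fin 2 → DualNumber k) : vsnd (v - w) = vsnd v - vsnd w := by
  funext i
  simp [vsnd]

/-- the constant vector over the dual numbers -/
def vconst (u : Fin 2 → k) : Fin 2 → DualNumber k := fun i => TrivSqZeroExt.inl (u i)

@[simp] theorem vfst_vconst (u : Fin 2 → k) : vfst (vconst u) = u := by
  funext i
  simp [vfst, vconst]

@[simp] theorem vsnd_vconst (u : Fin 2 → k) : vsnd (vconst u) = 0 := by
  funext i
  simp [vsnd, vconst]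

end Fermat.Agent.S56.Ord.Shape
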