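/-
PROJECT T (S56), block (a2) = S56/Ord (helper6), file [O3]: FROM THE PRELUDE'S `IsStrictOrdinaryAt` +
`DetIsCyclotomic` (over `k[ε]`) TO THE LINE DATA OF A MATRIX LIFT, and uniqueness of the line.

For a matrix lift `L` of `rbar` to `k[ε]` with `Pso p`: a vector `v = vb + ε v1` of `k[ε]²`,
`vb ≠ 0`, such that every `σ ∈ D_p` has `r σ v = x v`, `r σ ≡ z` on `k[ε]² / k[ε] v` with CONSTANTS
`x, z ∈ kˣ` (`z² = 1`, `x = a z` when `σ` acts on `μ_p` by `ζ ↦ ζ^a`), and `I_p` acts trivially on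
`k² / k vb`.  The line `k vb` does not depend on the lift (`p` odd: leaf (O-R)).
-/
import Fermat.Agent.S56.Coh.CocDefs
import Fermat.Agent.S56.Ord.Shape
import Fermat.Agent.S56.Ord.OmegaRam
import Fermat.Agent.S56.Ord.KummerP

set_option autoImplicit false
set_option linter.unusedSectionVars false

namespace Fermat.Agent.S56.Ord.Line

open Matrix Fermat.Agent.S53.TangentBound Fermat.Agent.S56.Coh Fermat.Agent.S56.Coh.CocDefs
  Fermat.Agent.S56.Ord.Shape Fermat.Agent.CFT.Bridge Fermat.Agent.CFT.LocalBridge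
open Fermat.Agent.S53.Dictionary hiding GQ

local notation "Qbar" => AlgebraicClosure ℚ

variable {k : Type} [Field k] {rbar : GQ →* GL (Fin 2) k}

/-- The line data of a matrix lift at `p`. -/
structure LineData (L : MatLift rbar) (p : ℕ) [Fact p.Prime] (vb v1 : Fin 2 → k) : Prop where
  ne : vb ≠ 0
  dec : ∀ σ ∈ Dq p, ∃ x z : k, x ≠ 0 ∧ z ≠ 0 ∧
    (rbar σ : Matrix (Fin 2) (Fin 2) k) *ᵥ vb = x • vb ∧
    msnd (L.r σ) *ᵥ vb + (rbar σ : Matrix (Fin 2) (Fin 2) k) *ᵥ v1 = x • v1 ∧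
    (∀ u, ∃ α β : k, (rbar σ : Matrix (Fin 2) (Fin 2) k) *ᵥ u - z • u = α • vb ∧
      msnd (L.r σ) *ᵥ u = β • vb + α • v1) ∧
    ∀ a : ℕ, (∀ μ : Qbar, μ ^ p = 1 → σ μ = μ ^ a) → x = a * z
  inert : ∀ σ ∈ Iq p, ∀ u, ∃ α : k, (rbar σ : Matrix (Fin 2) (Fin 2) k) *ᵥ u - u = α • vb

section

variable {p : ℕ} [hp : Fact p.Prime] [CharP k p]

theorem natCast_p_dual : ((p : ℕ) : DualNumber k) = 0 := by
  apply TrivSqZeroExt.ext
  · rw [TrivSqZeroExt.fst_natCast, CharP.cast_eq_zero, TrivSqZeroExt.fst_zero]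
  · rw [TrivSqZeroExt.snd_natCast, TrivSqZeroExt.snd_zero]

theorem span_p_pow_one : Ideal.span {(((p ^ 1 : ℕ) : ℕ) : DualNumber k)} = ⊥ := by
  rw [pow_one, natCast_p_dual, Ideal.span_singleton_eq_bot]

theorem two_ne_zero_of_ne (hp2 : p ≠ 2) : (2 : k) ≠ 0 := by
  intro h
  have h1 : ((2 : ℕ) : k) = 0 := by exact_mod_cast h
  rw [CharP.cast_eq_zero_iff k p] at h1
  have := Nat.le_of_dvd (by norm_num) h1
  have h2 := hp.out.two_le
  omega

/-- The exponent by which `σ` acts on `μ_p` is prime to `p`. -/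
theorem natCast_ne_zero_of_acts {σ : GQ} {a : ℕ} (ha : ∀ μ : Qbar, μ ^ p = 1 → σ μ = μ ^ a) :
    (a : k) ≠ 0 := by
  intro h0
  rw [CharP.cast_eq_zero_iff k p] at h0
  obtain ⟨ζ, hζ⟩ : ∃ ζ : Qbar, IsPrimitiveRoot ζ p := by
    have : NeZero (p : ℚ) := ⟨Nat.cast_ne_zero.2 hp.out.ne_zero⟩
    exact HasEnoughRootsOfUnity.exists_primitiveRoot Qbar p
  have h1 := ha ζ hζ.pow_eq_one
  obtain ⟨c, rfl⟩ := h0
  rw [pow_mul, hζ.pow_eq_one, one_pow] at h1
  have h2 : ζ = 1 := by
    have := congrArg σ.symm h1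
    rwa [map_one, AlgEquiv.symm_apply_apply] at this
  exact hζ.ne_one hp.out.one_lt h2

/-- a basis vector of `k[ε]²` has non-zero reduction -/
theorem vfst_basis_ne_zero (b : Module.Basis (Fin 2) (DualNumber k) (Fin 2 → DualNumber k))
    (i : Fin 2) : vfst (b i) ≠ 0 := by
  intro h0
  have h1 : (DualNumber.eps : DualNumber k) • (b i) = 0 := by
    funext j
    have hj : TrivSqZeroExt.fst ((b i) j) = 0 := congrFun h0 j
    apply TrivSqZeroExt.ext
    · simp
    · simp [hj]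
  have h2 := congrArg (fun y => b.repr y i) h1
  simp only [map_smul, Module.Basis.repr_self, Finsupp.smul_apply, Finsupp.single_eq_same,
    smul_eq_mul, mul_one, map_zero, Finsupp.zero_apply] at h2
  have h3 := congrArg TrivSqZeroExt.snd h2
  simp at h3

/-- **The line data of a strict-ordinary lift with cyclotomic determinant.** -/
theorem exists_lineData (hp2 : p ≠ 2) (L : MatLift rbar)
    (hdet : (ofMat L.r L.cont).DetIsCyclotomic p)
    (hso : (ofMat L.r L.cont).IsStrictOrdinaryAt p) :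
    ∃ vb v1 : Fin 2 → k, LineData L p vb v1 := by
  obtain ⟨Lsub, ⟨b, hb⟩, hD, hI, hchar⟩ := hso.2 (padicPlace p) (liesOverPrime_padicPlace p)
  -- everything lives in `Fin 2 → k[ε]`
  let b' : Module.Basis (Fin 2) (DualNumber k) (Fin 2 → DualNumber k) := b
  let v : Fin 2 → DualNumber k := b' 0
  have hLsub : ∀ y : Fin 2 → DualNumber k, y ∈ Lsub → ∃ t : DualNumber k, t • v = y := by
    intro y hy
    rw [hb] at hy
    exact Submodule.mem_span_singleton.1 hy
  have hvmem : v ∈ Lsub := by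
    rw [hb]
    exact Submodule.mem_span_singleton_self (b 0)
  have hρ : ∀ (σ : GQ) (y : Fin 2 → DualNumber k),
      (ofMat L.r L.cont).ρ σ y = (L.r σ) *ᵥ y := fun σ y => ofMat_ρ_apply L.r L.cont σ y
  refine ⟨vfst v, vsnd v, vfst_basis_ne_zero b' 0, ?_, ?_⟩
  · intro σ hσ
    obtain ⟨x, z, hx, hz, hcyc⟩ := hchar σ hσ
    -- the exponent of `σ` on `μ_p`
    obtain ⟨i, hi⟩ := KummerP.exists_omega (p := p) σ
    have ha0 : ((i.val : ℕ) : k) ≠ 0 := natCast_ne_zero_of_acts hi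
    have hpow : ∀ a : ℕ, (∀ μ : Qbar, μ ^ p = 1 → σ μ = μ ^ a) → x = (a : DualNumber k) * z := by
      intro a ha
      have h1 := hcyc 1 a (fun μ hμ => ha μ (by rwa [pow_one] at hμ))
      rw [span_p_pow_one, Ideal.mem_bot, sub_eq_zero] at h1
      exact h1
    have hxz : x = ((i.val : ℕ) : DualNumber k) * z := hpow _ hi
    -- determinant
    have hdet1 : LinearMap.det ((ofMat L.r L.cont).ρ σ) = ((i.val : ℕ) : DualNumber k) := by
      have h1 := hdet.2 1 σ i.val (fun μ hμ => hi μ (by rwa [pow_one] at hμ))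
      rw [span_p_pow_one, Ideal.mem_bot, sub_eq_zero] at h1
      exact h1
    have hf0 : (ofMat L.r L.cont).ρ σ (b 0) = x • b 0 := hx (b 0) hvmem
    obtain ⟨t, ht⟩ := hLsub _ (hz (b 1))
    have hf1 : (ofMat L.r L.cont).ρ σ (b 1) = z • b 1 + t • b 0 := by
      have : t • b 0 = (ofMat L.r L.cont).ρ σ (b 1) - z • b 1 := ht
      rw [this]; abel
    have hdet2 : LinearMap.det ((ofMat L.r L.cont).ρ σ) = x * z := by
      rw [← LinearMap.det_toMatrix b, Matrix.det_fin_two]
      simp only [LinearMap.toMatrix_apply, hf0, hf1, map_add, map_smul, Module.Basis.repr_self,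
        Finsupp.smul_apply, Finsupp.add_apply, Finsupp.single_apply, smul_eq_mul]
      simp
    have hzz : z * z = 1 := by
      have h1 : ((i.val : ℕ) : DualNumber k) * (z * z) = ((i.val : ℕ) : DualNumber k) * 1 := by
        rw [mul_one, ← mul_assoc, ← hxz, ← hdet2, hdet1]
      have hu : IsUnit (((i.val : ℕ) : DualNumber k)) := by
        rw [TrivSqZeroExt.isUnit_iff_isUnit_fst, TrivSqZeroExt.fst_natCast]
        exact ha0.isUnit
      exact hu.mul_left_cancel h1
    have hz1 : TrivSqZeroExt.snd z = 0 := snd_eq_zero_of_sq_eq_one (two_ne_zero_of_ne hp2) hzz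
    have hx1 : TrivSqZeroExt.snd x = 0 := by
      rw [hxz, TrivSqZeroExt.snd_mul, hz1, TrivSqZeroExt.snd_natCast, smul_zero]
      simp
    have hz0 : TrivSqZeroExt.fst z ≠ 0 := by
      intro h0
      have h1 := congrArg TrivSqZeroExt.fst hzz
      rw [TrivSqZeroExt.fst_mul, h0, zero_mul, TrivSqZeroExt.fst_one] at h1
      exact zero_ne_one h1
    have hxfst : ∀ a : ℕ, (∀ μ : Qbar, μ ^ p = 1 → σ μ = μ ^ a) →
        TrivSqZeroExt.fst x = a * TrivSqZeroExt.fst z := by
      intro a ha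
      have h1 := congrArg TrivSqZeroExt.fst (hpow a ha)
      rwa [TrivSqZeroExt.fst_mul, TrivSqZeroExt.fst_natCast] at h1
    have hx0 : TrivSqZeroExt.fst x ≠ 0 := by
      rw [hxfst _ hi]
      exact mul_ne_zero ha0 hz0
    have hf0' : (L.r σ) *ᵥ v = x • v := by
      rw [← hρ]
      exact hf0
    refine ⟨TrivSqZeroExt.fst x, TrivSqZeroExt.fst z, hx0, hz0, ?_, ?_, ?_, hxfst⟩
    · have h1 := congrArg vfst hf0'
      rw [vfst_mulVec, vfst_smul, L.fst_eq] at h1
      exact h1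
    · have h1 := congrArg vsnd hf0'
      rw [vsnd_mulVec, vsnd_smul, L.fst_eq, hx1, zero_smul, add_zero] at h1
      rw [← h1]
      abel
    · intro u
      obtain ⟨t, ht⟩ := hLsub _ (hz (vconst u))
      have ht' : t • v = (L.r σ) *ᵥ vconst u - z • vconst u := by
        rw [← hρ]
        exact ht
      refine ⟨TrivSqZeroExt.fst t, TrivSqZeroExt.snd t, ?_, ?_⟩
      · have h1 := congrArg vfst ht'
        rw [vfst_smul, vfst_sub, vfst_mulVec, vfst_smul, vfst_vconst, L.fst_eq] at h1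
        exact h1.symm
      · have h1 := congrArg vsnd ht'
        rw [vsnd_smul, vsnd_sub, vsnd_mulVec, vsnd_smul, vsnd_vconst, vfst_vconst, hz1,
          Matrix.mulVec_zero, zero_add, smul_zero, zero_smul, add_zero, sub_zero] at h1
        rw [← h1]
        abel
  · intro σ hσ u
    obtain ⟨t, ht⟩ := hLsub _ (hI σ hσ (vconst u))
    have ht' : t • v = (L.r σ) *ᵥ vconst u - vconst u := by
      rw [← hρ]
      exact ht
    refine ⟨TrivSqZeroExt.fst t, ?_⟩
    have h1 := congrArg vfst ht'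
    rw [vfst_smul, vfst_sub, vfst_mulVec, vfst_vconst, L.fst_eq] at h1
    exact h1.symm

/-- rescaling the line data -/
theorem LineData.smul {L : MatLift rbar} {vb v1 : Fin 2 → k} (h : LineData L p vb v1) {c : k}
    (hc : c ≠ 0) : LineData L p (c • vb) (c • v1) := by
  refine ⟨smul_ne_zero hc h.ne, ?_, ?_⟩
  · intro σ hσ
    obtain ⟨x, z, hx, hz, h1, h2, h3, h4⟩ := h.dec σ hσ
    refine ⟨x, z, hx, hz, ?_, ?_, ?_, h4⟩
    · rw [Matrix.mulVec_smul, h1, smul_comm]
    · rw [Matrix.mulVec_smul, Matrix.mulVec_smul, ← smul_add, h2, smul_comm]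
    · intro u
      obtain ⟨α, β, h5, h6⟩ := h3 u
      refine ⟨α / c, β / c, ?_, ?_⟩
      · rw [h5, smul_smul, div_mul_cancel₀ _ hc]
      · rw [h6, smul_smul, smul_smul, div_mul_cancel₀ _ hc, div_mul_cancel₀ _ hc]
  · intro σ hσ u
    obtain ⟨α, h1⟩ := h.inert σ hσ u
    exact ⟨α / c, by rw [h1, smul_smul, div_mul_cancel₀ _ hc]⟩

/-- **Uniqueness of the line** (`p` odd): two strict-ordinary lifts have the same line `k vb`. -/
theorem line_unique (hp2 : p ≠ 2) {L L' : MatLift rbar} {vb v1 vb' v1' : Fin 2 → k}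
    (h : LineData L p vb v1) (h' : LineData L' p vb' v1') : ∃ c : k, c ≠ 0 ∧ vb' = c • vb := by
  by_cases hphi : phi vb vb' = 0
  · obtain ⟨c, hc⟩ := exists_smul_of_phi_eq_zero h.ne hphi
    refine ⟨c, ?_, hc⟩
    rintro rfl
    rw [zero_smul] at hc
    exact h'.ne hc
  · exfalso
    obtain ⟨σ, hσ, ζ, hζ, hne⟩ := OmegaRam.exists_mem_inertia_ne hp.out hp2
      (liesOverPrime_padicPlace p)
    have hσI : σ ∈ Iq p := hσ
    have hσD : σ ∈ Dq p := Iq_le_Dq p hσI
    -- `rbar σ` is the identity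
    have hid : ∀ u, (rbar σ : Matrix (Fin 2) (Fin 2) k) *ᵥ u = u := by
      intro u
      obtain ⟨α, h1⟩ := h.inert σ hσI u
      obtain ⟨α', h2⟩ := h'.inert σ hσI u
      have h3 : α' • vb' = α • vb := by rw [← h1, ← h2]
      have h4 := congrArg (phi vb) h3
      rw [phi_smul, phi_smul, phi_self, mul_zero] at h4
      have h5 : α' = 0 := (mul_eq_zero.1 h4).resolve_right hphi
      rw [h5, zero_smul, sub_eq_zero] at h2
      exact h2
    obtain ⟨x, z, hx, hz, h1, -, h3, h4⟩ := h.dec σ hσD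
    have hx1 : x = 1 := by
      rw [hid] at h1
      have h5 : (x - 1) • vb = 0 := by rw [sub_smul, one_smul, ← h1, sub_self]
      rcases smul_eq_zero.1 h5 with h6 | h6
      · exact sub_eq_zero.1 h6
      · exact absurd h6 h.ne
    have hz1 : z = 1 := by
      obtain ⟨u, hu⟩ := exists_phi_ne_zero h.ne
      obtain ⟨α, β, h5, -⟩ := h3 u
      rw [hid] at h5
      have h6 := congrArg (phi vb) h5
      rw [phi_smul, phi_self, mul_zero, phi_sub, phi_smul] at h6
      have h7 : (1 - z) * phi vb u = 0 := by linear_combination h6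
      rcases mul_eq_zero.1 h7 with h8 | h8
      · exact (sub_eq_zero.1 h8).symm
      · exact absurd h8 hu
    obtain ⟨i, hi⟩ := KummerP.exists_omega (p := p) σ
    have h5 := h4 _ hi
    rw [hx1, hz1, mul_one] at h5
    have h6 : ((i.val : ℕ) : k) = ((1 : ℕ) : k) := by rw [← h5, Nat.cast_one]
    rw [CharP.natCast_eq_natCast k p] at h6
    apply hne
    rw [hi ζ hζ, ← KummerP.pow_mod_of_pow_eq_one hζ, h6, KummerP.pow_mod_of_pow_eq_one hζ, pow_one]

end

end Fermat.Agent.S56.Ord.Line
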