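/-
PROJECT T (S56), block (a2) = S56/Ord (helper6), file [O6]: THE STRICT-ORDINARY UPPER BOUND

  `#(Lc_p^so / B1(D_p, M)) ≤ #k * #H⁰(D_p, M)`,   `M = ad⁰ ρbar`,

in the export shape of chief post #3958 (2) / helper18 #3938 (stated on `LcOf rbar (Pso p) p`,
unconditional: no deformation ring).
-/
import Fermat.Agent.S56.Ord.Line
import Fermat.Agent.S56.Ord.Count

set_option autoImplicit false
set_option linter.unusedSectionVars false

namespace Fermat.Agent.S56.Ord.Main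

open Matrix CategoryTheory groupCohomology
open Fermat.Agent.S53.TangentBound Fermat.Agent.S56.Coh Fermat.Agent.S56.Coh.CocDefs
  Fermat.Agent.S56.Ord.Shape Fermat.Agent.S56.Ord.Line Fermat.Agent.CFT.Bridge
  Fermat.Agent.CFT.LocalBridge Fermat.Agent.CFT.LC
open Fermat.Agent.S53.Dictionary hiding GQ

local notation "Qbar" => AlgebraicClosure ℚ

/-- `Lc / (B1 ∩ Lc)` for a subspace `Lc` of functions on `D_q`.  Stated for a GENERIC coefficient
module `A`, so that the quotient instances are elaborated once and for all: for `A = Mrep rbar`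
the surface syntax `↥Lc ⧸ (B1 (Dq q) A).comap Lc.subtype` does not elaborate (the instance paths
inside `Rep.of (adRep rbar)` get unfolded), but this abbreviation unfolds to exactly that term. -/
abbrev LocQuot {k : Type} [CommRing k] (q : ℕ) [Fact q.Prime] (A : Rep.{0} k GQ)
    (Lc : Submodule k (↥(Dq q) → resRep (Dq q) A)) : Type :=
  ↥Lc ⧸ (B1 (Dq q) A).comap Lc.subtype

variable {k : Type} [Field k] {rbar : GQ →* GL (Fin 2) k}

/-- `E vb` as an element of `M`. -/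
def Emat (rbar : GQ →* GL (Fin 2) k) (vb : Fin 2 → k) : Mrep rbar :=
  (⟨E vb, mem_sl2.2 (trace_E vb)⟩ : sl2 k)

theorem Emat_coe (vb : Fin 2 → k) : ((Emat rbar vb : sl2 k) : Matrix (Fin 2) (Fin 2) k) = E vb := rfl

theorem Emat_ne_zero {vb : Fin 2 → k} (h : vb ≠ 0) : Emat rbar vb ≠ 0 := by
  intro h0
  exact E_ne_zero h (congrArg (fun m : sl2 k => (m : Matrix (Fin 2) (Fin 2) k)) h0)

/-- `hh vb` as an element of `M`. -/
noncomputable def hel (rbar : GQ →* GL (Fin 2) k) {vb : Fin 2 → k} (h : vb ≠ 0) : Mrep rbar :=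
  (⟨hh vb, mem_sl2.2 (trace_hh h)⟩ : sl2 k)

/-- The line `W0 = k ∙ E vb` of `M`. -/
def W0 (rbar : GQ →* GL (Fin 2) k) (vb : Fin 2 → k) : Submodule k (Mrep rbar) :=
  Submodule.span k {Emat rbar vb}

theorem mem_W0_iff {vb : Fin 2 → k} {m : Mrep rbar} :
    m ∈ W0 rbar vb ↔ ∃ γ : k, γ • Emat rbar vb = m := Submodule.mem_span_singleton

/-- membership in `W0` from the two matrix conditions -/
theorem mem_W0_of {vb : Fin 2 → k} (h : vb ≠ 0) {m : Mrep rbar}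
    (h1 : (m : sl2 k).1 *ᵥ vb = 0) (h2 : ∀ u, ∃ c : k, (m : sl2 k).1 *ᵥ u = c • vb) :
    m ∈ W0 rbar vb := by
  obtain ⟨γ, hγ⟩ := eq_smul_E h h1 h2
  rw [mem_W0_iff]
  refine ⟨γ, ?_⟩
  apply Subtype.ext
  rw [hγ]
  rfl

theorem card_W0 [Finite k] {vb : Fin 2 → k} (h : vb ≠ 0) :
    Nat.card (W0 rbar vb) = Nat.card k :=
  (Nat.card_congr (LinearEquiv.toSpanNonzeroSingleton k (Mrep rbar) (Emat rbar vb)
    (Emat_ne_zero h)).toEquiv).symm

theorem hel_not_mem {vb : Fin 2 → k} (h : vb ≠ 0) : hel rbar h ∉ W0 rbar vb := by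
  rw [mem_W0_iff]
  rintro ⟨γ, hγ⟩
  have h1 := congrArg (fun m : sl2 k => (m : Matrix (Fin 2) (Fin 2) k) *ᵥ vb) hγ
  simp only at h1
  have h2 : ((γ • Emat rbar vb : sl2 k) : Matrix (Fin 2) (Fin 2) k) = γ • E vb := rfl
  have h3 : ((hel rbar h : sl2 k) : Matrix (Fin 2) (Fin 2) k) = hh vb := rfl
  rw [h2, h3, Matrix.smul_mulVec, E_mulVec, phi_self, zero_smul, smul_zero, hh_mulVec_self h] at h1
  exact h h1.symm

/-! ### the action of `D_p` on `W0` and on `h` -/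

section Action

variable {p : ℕ} [hp : Fact p.Prime]

theorem rho_Emat {vb : Fin 2 → k} {σ : GQ}
    {x z : k} (hz : z ≠ 0)
    (h1 : (rbar σ : Matrix (Fin 2) (Fin 2) k) *ᵥ vb = x • vb)
    (h3 : ∀ u, ∃ α : k, (rbar σ : Matrix (Fin 2) (Fin 2) k) *ᵥ u - z • u = α • vb) :
    (Mrep rbar).ρ σ (Emat rbar vb) = (x * z⁻¹) • Emat rbar vb := by
  apply Subtype.ext
  rw [Mrep_ρ_coe, Emat_coe]
  exact conj_E hz (Units.mul_inv (rbar σ)) h1 h3

theorem rho_hel_sub_mem {vb : Fin 2 → k} (hvb : vb ≠ 0) {σ : GQ} {x : k} (hx : x ≠ 0)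
    (h1 : (rbar σ : Matrix (Fin 2) (Fin 2) k) *ᵥ vb = x • vb) :
    (Mrep rbar).ρ σ (hel rbar hvb) - hel rbar hvb ∈ W0 rbar vb := by
  obtain ⟨c, hc⟩ := conj_hh hvb hx (Units.inv_mul (rbar σ)) (Units.mul_inv (rbar σ)) h1
  rw [mem_W0_iff]
  refine ⟨c, ?_⟩
  apply Subtype.ext
  show c • E vb = _
  rw [← hc]
  rfl

end Action

/-! ### the cocycle of a strict-ordinary lift -/

section Member

variable (rbar) (p : ℕ) [hp : Fact p.Prime]

/-- locally constant cocycles on `D_p` with values in `W0` -/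
def ZW (vb : Fin 2 → k) : Submodule k (↥(Dq p) → resRep (Dq p) (Mrep rbar)) where
  carrier := {c | c ∈ Z1 (Dq p) (Mrep rbar) ∧ ∀ s, (c s : Mrep rbar) ∈ W0 rbar vb}
  add_mem' := by
    rintro c c' ⟨h1, h2⟩ ⟨h1', h2'⟩
    exact ⟨Submodule.add_mem _ h1 h1', fun s => Submodule.add_mem _ (h2 s) (h2' s)⟩
  zero_mem' := ⟨Submodule.zero_mem _, fun s => Submodule.zero_mem _⟩
  smul_mem' := by
    rintro a c ⟨h1, h2⟩
    exact ⟨Submodule.smul_mem _ a h1, fun s => Submodule.smul_mem _ a (h2 s)⟩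

variable {rbar p}

theorem mem_ZW_iff {vb : Fin 2 → k} {c : ↥(Dq p) → resRep (Dq p) (Mrep rbar)} :
    c ∈ ZW rbar p vb ↔ c ∈ Z1 (Dq p) (Mrep rbar) ∧ ∀ s, (c s : Mrep rbar) ∈ W0 rbar vb := Iff.rfl

variable [CharP k p]

/-- **The cocycle of every strict-ordinary lift lies in `B1 + Z1(D_p, W0)`**, `W0` the line of any
fixed strict-ordinary lift. -/
theorem resFun_cocOf_mem (hp2 : p ≠ 2) {L0 L : MatLift rbar} {vb0 v10 : Fin 2 → k}
    (h0 : LineData L0 p vb0 v10) (hL : Pso p (ofMat L.r L.cont)) :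
    resFun (Dq p) (cocOf L) ∈ B1 (Dq p) (Mrep rbar) ⊔ ZW rbar p vb0 := by
  obtain ⟨vb, v1, hLD⟩ := exists_lineData hp2 L hL.1 hL.2
  obtain ⟨c, hc, hvb⟩ := line_unique hp2 h0 hLD
  have hLD' := hLD.smul (inv_ne_zero hc)
  have hvb' : c⁻¹ • vb = vb0 := by rw [hvb, smul_smul, inv_mul_cancel₀ hc, one_smul]
  rw [hvb'] at hLD'
  obtain ⟨Y, hYtr, hY⟩ := exists_trace_zero_mulVec h0.ne (c⁻¹ • v1)
  let Ym : Mrep rbar := (⟨Y, mem_sl2.2 hYtr⟩ : sl2 k)
  have hdY : (d₀₁ (resRep (Dq p) (Mrep rbar))).hom Ym ∈ B1 (Dq p) (Mrep rbar) := by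
    rw [mem_B₁_iff]
    refine ⟨Ym, ?_, rfl⟩
    obtain ⟨U, hU, hUL⟩ := exists_level L
    refine ⟨U.comap (Dq p).subtype, Levels.mem_comap_sets hU, fun s hs => ?_⟩
    have hs' : L.r (s : GQ) = 1 := hUL _ hs
    have h1 : rbar (s : GQ) = 1 := rbar_eq_one_of_eq_one L hs'
    show (Mrep rbar).ρ (s : GQ) Ym = Ym
    apply Subtype.ext
    rw [Mrep_ρ_coe, h1, inv_one, Units.val_one, Matrix.one_mul, Matrix.mul_one]
  have hc' : resFun (Dq p) (cocOf L) + (d₀₁ (resRep (Dq p) (Mrep rbar))).hom Ym ∈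
      ZW rbar p vb0 := by
    refine ⟨Submodule.add_mem _ (resFun_mem_Z1 _ (cocOf_mem_Z1g L)) (B1_le_Z1 _ hdY), fun s => ?_⟩
    obtain ⟨x, z, hx, hz, h1, h2, h3, h4⟩ := hLD'.dec s s.2
    obtain ⟨k1, k2⟩ := corrected_cocycle (Rb := (rbar (s : GQ) : Matrix (Fin 2) (Fin 2) k))
      (Rbi := (((rbar (s : GQ))⁻¹ : GL (Fin 2) k) : Matrix (Fin 2) (Fin 2) k))
      (C1 := msnd (L.r (s : GQ))) (Y := Y) hx (Units.inv_mul _) (Units.mul_inv _) h1 h2 h3 hY
    have hcoe : (((resFun (Dq p) (cocOf L) + (d₀₁ (resRep (Dq p) (Mrep rbar))).hom Ym) s :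
        Mrep rbar) : sl2 k).1 =
        msnd (L.r (s : GQ)) * (((rbar (s : GQ))⁻¹ : GL (Fin 2) k) : Matrix (Fin 2) (Fin 2) k) +
          (rbar (s : GQ) : Matrix (Fin 2) (Fin 2) k) * Y *
            (((rbar (s : GQ))⁻¹ : GL (Fin 2) k) : Matrix (Fin 2) (Fin 2) k) - Y := by
      rw [add_sub_assoc]
      rfl
    apply mem_W0_of h0.ne
    · rw [hcoe]; exact k1
    · intro u
      rw [hcoe]; exact k2 u
  have hsplit : resFun (Dq p) (cocOf L) =
      -(d₀₁ (resRep (Dq p) (Mrep rbar))).hom Ym +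
        (resFun (Dq p) (cocOf L) + (d₀₁ (resRep (Dq p) (Mrep rbar))).hom Ym) := by abel
  rw [hsplit]
  exact Submodule.add_mem_sup (Submodule.neg_mem _ hdY) hc'

end Member

/-! ### the count -/

section Final

variable {p : ℕ} [hp : Fact p.Prime] [CharP k p]

/-- coboundaries of elements moved inside `W0` lie in `B1 ⊓ ZW` -/
theorem dcob_mem (L0 : MatLift rbar) {vb : Fin 2 → k} (n : Mrep rbar)
    (hn : ∀ s : ↥(Dq p), (Mrep rbar).ρ (s : GQ) n - n ∈ W0 rbar vb) :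
    (d₀₁ (resRep (Dq p) (Mrep rbar))).hom n ∈ B1 (Dq p) (Mrep rbar) ⊓ ZW rbar p vb := by
  have hB : (d₀₁ (resRep (Dq p) (Mrep rbar))).hom n ∈ B1 (Dq p) (Mrep rbar) := by
    rw [mem_B₁_iff]
    refine ⟨n, ?_, rfl⟩
    obtain ⟨U, hU, hUL⟩ := exists_level L0
    refine ⟨U.comap (Dq p).subtype, Levels.mem_comap_sets hU, fun s hs => ?_⟩
    have hs' : L0.r (s : GQ) = 1 := hUL _ hs
    have h1 : rbar (s : GQ) = 1 := rbar_eq_one_of_eq_one L0 hs'
    show (Mrep rbar).ρ (s : GQ) n = n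
    apply Subtype.ext
    rw [Mrep_ρ_coe, h1, inv_one, Units.val_one, Matrix.one_mul, Matrix.mul_one]
  exact ⟨hB, B1_le_Z1 _ hB, fun s => hn s⟩

variable [Finite k]

/-- **`#Z1(D_p, W0) ≤ (#k)^3`**, from the local Kummer leaf (O-K). -/
theorem finite_card_ZW (hp2 : p ≠ 2) {L0 : MatLift rbar} {vb0 v10 : Fin 2 → k}
    (h0 : LineData L0 p vb0 v10) :
    Finite (ZW rbar p vb0) ∧ Nat.card (ZW rbar p vb0) ≤ Nat.card k ^ 3 := by
  classical
  choose x z hx hz h1 h2 h3 h4 using fun s : ↥(Dq p) => h0.dec s s.2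
  let θ : ↥(KummerP.Dp p) → k := fun s => x s * (z s)⁻¹
  have hθ : ∀ (s : ↥(KummerP.Dp p)) (a : ℕ),
      (∀ μ : Qbar, μ ^ p = 1 → (s : GQ) μ = μ ^ a) → θ s = a := by
    intro s a ha
    show x s * (z s)⁻¹ = a
    rw [h4 s a ha, mul_assoc, mul_inv_cancel₀ (hz s), mul_one]
  obtain ⟨hfin, hcard⟩ := KummerP.card_isCrossD_le hp2 θ hθ
  have hE : Emat rbar vb0 ≠ 0 := Emat_ne_zero h0.ne
  have hex : ∀ (c : ZW rbar p vb0) (s : ↥(Dq p)), ∃ γ : k, γ • Emat rbar vb0 = (c.1 s : Mrep rbar) :=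
    fun c s => mem_W0_iff.1 (c.2.2 s)
  choose γ hγ using hex
  have hρE : ∀ s : ↥(Dq p), (Mrep rbar).ρ (s : GQ) (Emat rbar vb0) = θ s • Emat rbar vb0 :=
    fun s => rho_Emat (hz s) (h1 s) (fun u => by
      obtain ⟨α, β, h5, -⟩ := h3 s u
      exact ⟨α, h5⟩)
  have hcross : ∀ c : ZW rbar p vb0, KummerP.IsCrossD p θ (γ c) := by
    intro c
    obtain ⟨hcoc, U, hU, hlc, -⟩ := (mem_Z1_iff (Dq p) c.1).1 c.2.1
    refine ⟨fun s t => ?_, ?_⟩
    · have h5 := hcoc s t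
      have h6 : (γ c (s * t)) • Emat rbar vb0 = (θ s * γ c t + γ c s) • Emat rbar vb0 := by
        rw [hγ c (s * t), add_smul, hγ c s, mul_comm, mul_smul, ← hρE s, ← map_smul, hγ c t]
        exact h5
      exact smul_left_injective k hE h6
    · obtain ⟨U', ⟨-, F, hF, hFU⟩, rfl⟩ := hU
      refine ⟨F, hF, fun (s t : ↥(Dq p)) (ht : (t : GQ) ∈ F.fixingSubgroup) => ?_⟩
      have htU : t ∈ U'.comap (Dq p).subtype := by
        rw [Subgroup.mem_comap, ← hFU]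
        exact ht
      have h5 := hlc s t htU
      have h6 : (γ c (s * t)) • Emat rbar vb0 = (γ c s) • Emat rbar vb0 := by
        rw [hγ c (s * t), hγ c s]
        exact h5
      exact smul_left_injective k hE h6
  let Φ : ZW rbar p vb0 → {c : ↥(KummerP.Dp p) → k // KummerP.IsCrossD p θ c} :=
    fun c => ⟨γ c, hcross c⟩
  have hinj : Function.Injective Φ := by
    intro c c' h
    apply Subtype.ext
    funext s
    have h5 : γ c s = γ c' s := congrFun (congrArg Subtype.val h) s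
    have h6 : (c.1 s : Mrep rbar) = (c'.1 s : Mrep rbar) := by
      rw [← hγ c s, ← hγ c' s, h5]
    exact h6
  exact ⟨Finite.of_injective Φ hinj, (Nat.card_le_card_of_injective Φ hinj).trans hcard⟩

theorem finite_Mrep (rbar : GQ →* GL (Fin 2) k) : Finite (Mrep rbar) :=
  inferInstanceAs (Finite ↥(sl2 k))

/-- **(a2): the strict-ordinary upper bound**, in the export shape of the upper-bound blocks:
`#(Lc_p^so / B1(D_p, M)) ≤ #k * #H⁰(D_p, M)`.  Unconditional (no deformation ring). -/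
theorem card_LcOf_so_le (hp2 : p ≠ 2) (rbar : GQ →* GL (Fin 2) k) :
    Finite (LocQuot p (Mrep rbar) (LcOf rbar (Pso p) p)) ∧
      Nat.card (LocQuot p (Mrep rbar) (LcOf rbar (Pso p) p)) ≤
        Nat.card k * Nat.card {m : Mrep rbar // ∀ g : ↥(Dq p), (Mrep rbar).ρ (g : GQ) m = m} := by
  classical
  have hfinM : Finite (Mrep rbar) := finite_Mrep rbar
  by_cases hex : ∃ L : MatLift rbar, Pso p (ofMat L.r L.cont)
  · obtain ⟨L0, hL0⟩ := hex
    obtain ⟨vb0, v10, h0⟩ := exists_lineData hp2 L0 hL0.1 hL0.2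
    have hle : LcOf rbar (Pso p) p ≤ B1 (Dq p) (Mrep rbar) ⊔ ZW rbar p vb0 :=
      LcOf_le p _ le_sup_left fun L hL => resFun_cocOf_mem hp2 h0 hL
    obtain ⟨hfinZ, hcardZ⟩ := finite_card_ZW hp2 h0
    choose x z hx hz h1 h2 h3 h4 using fun s : ↥(Dq p) => h0.dec s s.2
    have hd : ∀ y : k × ↥(W0 rbar vb0),
        Count.delta (fun g : ↥(Dq p) => (Mrep rbar).ρ (g : GQ)) (W0 rbar vb0) (hel rbar h0.ne) y ∈
          B1 (Dq p) (Mrep rbar) ⊓ ZW rbar p vb0 := by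
      intro y
      refine dcob_mem L0 (y.1 • hel rbar h0.ne + (y.2 : Mrep rbar)) fun s => ?_
      obtain ⟨γ, hγ⟩ := mem_W0_iff.1 y.2.2
      have hE : (Mrep rbar).ρ (s : GQ) (Emat rbar vb0) = (x s * (z s)⁻¹) • Emat rbar vb0 :=
        rho_Emat (hz s) (h1 s) (fun u => by
          obtain ⟨α, β, h5, -⟩ := h3 s u
          exact ⟨α, h5⟩)
      have hsplit : (Mrep rbar).ρ (s : GQ) (y.1 • hel rbar h0.ne + (y.2 : Mrep rbar)) -
          (y.1 • hel rbar h0.ne + (y.2 : Mrep rbar)) =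
          y.1 • ((Mrep rbar).ρ (s : GQ) (hel rbar h0.ne) - hel rbar h0.ne) +
            (γ * (x s * (z s)⁻¹) - γ) • Emat rbar vb0 := by
        rw [map_add, map_smul, ← hγ, map_smul, hE]
        module
      rw [hsplit]
      exact Submodule.add_mem _ (Submodule.smul_mem _ _ (rho_hel_sub_mem h0.ne (hx s) (h1 s)))
        (Submodule.smul_mem _ _ (Submodule.mem_span_singleton_self _))
    exact Count.card_quotient_le (fun g : ↥(Dq p) => (Mrep rbar).ρ (g : GQ)) (W0 rbar vb0)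
      (card_W0 h0.ne) (hel rbar h0.ne) (hel_not_mem h0.ne) (B1 (Dq p) (Mrep rbar))
      (ZW rbar p vb0) hd hcardZ (LcOf rbar (Pso p) p) hle
  · -- no strict-ordinary lift: `LcOf = B1`
    have hle : LcOf rbar (Pso p) p ≤ B1 (Dq p) (Mrep rbar) :=
      LcOf_le p _ le_rfl fun L hL => absurd ⟨L, hL⟩ hex
    have htop : (B1 (Dq p) (Mrep rbar)).comap (LcOf rbar (Pso p) p).subtype = ⊤ := by
      rw [eq_top_iff]
      intro y _
      exact hle y.2
    have hsub : Subsingleton (LocQuot p (Mrep rbar) (LcOf rbar (Pso p) p)) :=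
      Submodule.Quotient.subsingleton_iff.2 htop
    refine ⟨Finite.of_subsingleton, ?_⟩
    have h1 : Nat.card (LocQuot p (Mrep rbar) (LcOf rbar (Pso p) p)) ≤ 1 :=
      Finite.card_le_one_iff_subsingleton.2 hsub
    have h2 : 0 < Nat.card k := Nat.card_pos
    have : Nonempty {m : Mrep rbar // ∀ g : ↥(Dq p), (Mrep rbar).ρ (g : GQ) m = m} :=
      ⟨⟨0, fun g => map_zero _⟩⟩
    have h3 : 0 < Nat.card {m : Mrep rbar // ∀ g : ↥(Dq p), (Mrep rbar).ρ (g : GQ) m = m} :=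
      Nat.card_pos
    exact h1.trans (Nat.mul_pos h2 h3)

end Final

end Fermat.Agent.S56.Ord.Main
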